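import Mathlib
import Fermat.Prelude.Def_EllipticCurve_FrobeniusTrace
import Fermat.Prelude.Def_FLTPrelim_Ramification

/-!
# The cyclotomic brick for S31

Frobenius elements at `ℓ ≠ p` raise `p`-power roots of unity to the `ℓ`-th power, inertia at
`q ≠ p` fixes them.  Consequence (`exists_field_pow_modEq`): there is a finite extension `L` of
`ℚ` (the `p^m`-th cyclotomic field) such that if `s^b` and `s'^b'` (Frobenii at `ℓ`, `ℓ'`) agree
on `L` with `g` and `g * τ` (`τ` in an inertia group at `q ≠ p`), then `ℓ^b ≡ ℓ'^b' mod p^m`.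
-/

set_option autoImplicit false

namespace Fermat.Agent.S31.Cyclo

open scoped Pointwise

section general

variable {L : Type*} [Field L] {K : Type*} [Field K] [Algebra K L]

/-- Elements of the decomposition group preserve the valuation subring. -/
theorem map_mem_of_mem_decomposition (A : ValuationSubring L) (σ : L ≃ₐ[K] L)
    (hσ : σ ∈ A.decompositionSubgroup K) {x : L} (hx : x ∈ A) : σ x ∈ A := by
  have h1 : σ • x ∈ σ • A := ValuationSubring.smul_mem_pointwise_smul _ x A hx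
  have h2 : σ • A = A := hσ
  rw [h2] at h1
  exact h1

/-- Unpacking of `IsFrobeniusAt`: a Frobenius element at `ℓ` is congruent to the `ℓ`-th power
map on the valuation subring. -/
theorem sub_pow_mem_of_isFrobeniusAt (A : ValuationSubring L) (σ : L ≃ₐ[K] L) (ℓ : ℕ)
    (hσ : A.IsFrobeniusAt σ ℓ) (x : L) (hx : x ∈ A) : σ x - x ^ ℓ ∈ A.nonunits := by
  obtain ⟨hdec, hfrob⟩ := hσ
  have hσx : σ x ∈ A := map_mem_of_mem_decomposition A σ hdec hx
  have h2 := hfrob (IsLocalRing.residue A ⟨x, hx⟩)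
  rw [← IsLocalRing.ResidueField.residue_smul, ← map_pow] at h2
  have h3 : ((⟨σ, hdec⟩ : A.decompositionSubgroup K) • (⟨x, hx⟩ : A)) - (⟨x, hx⟩ : A) ^ ℓ
      ∈ IsLocalRing.maximalIdeal A := by
    rw [← Ideal.Quotient.eq]
    exact h2
  have h4 : (((⟨σ, hdec⟩ : A.decompositionSubgroup K) • (⟨x, hx⟩ : A)) - (⟨x, hx⟩ : A) ^ ℓ : A)
      = ⟨σ x - x ^ ℓ, A.sub_mem hσx (A.pow_mem hx ℓ)⟩ := by
    rfl
  rw [h4] at h3
  exact A.mem_nonunits_iff.mpr ((A.valuation_lt_one_iff _).mp h3)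

/-- Unpacking of the inertia subgroup: its elements move every element of `A` by a non-unit. -/
theorem sub_mem_of_mem_inertia (A : ValuationSubring L) (σ : L ≃ₐ[K] L)
    (hσ : σ ∈ A.inertiaSubgroupIn K) (x : L) (hx : x ∈ A) : σ x - x ∈ A.nonunits := by
  obtain ⟨τ, hτ, rfl⟩ := hσ
  have hτx : (τ : L ≃ₐ[K] L) x ∈ A := map_mem_of_mem_decomposition A _ τ.2 hx
  have h1 : MulSemiringAction.toRingAut (A.decompositionSubgroup K) (IsLocalRing.ResidueField A) τ
      = 1 := hτ
  have h2 : τ • (IsLocalRing.residue A ⟨x, hx⟩) = IsLocalRing.residue A ⟨x, hx⟩ := by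
    have := congrArg (fun f => f (IsLocalRing.residue A ⟨x, hx⟩)) h1
    simpa using this
  rw [← IsLocalRing.ResidueField.residue_smul] at h2
  have h3 : (τ • (⟨x, hx⟩ : A)) - ⟨x, hx⟩ ∈ IsLocalRing.maximalIdeal A := by
    rw [← Ideal.Quotient.eq]
    exact h2
  have h4 : ((τ • (⟨x, hx⟩ : A)) - ⟨x, hx⟩ : A) = ⟨(τ : L ≃ₐ[K] L) x - x, A.sub_mem hτx hx⟩ := by
    rfl
  rw [h4] at h3
  exact A.mem_nonunits_iff.mpr ((A.valuation_lt_one_iff _).mp h3)

/-- Roots of unity have valuation one. -/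
theorem valuation_eq_one_of_pow_eq_one (A : ValuationSubring L) {z : L} {n : ℕ} (hn : n ≠ 0)
    (hz : z ^ n = 1) : A.valuation z = 1 := by
  have h : A.valuation z ^ n = 1 := by rw [← map_pow, hz, map_one]
  exact (pow_eq_one_iff_of_nonneg zero_le hn).mp h

/-- Roots of unity lie in every valuation subring. -/
theorem mem_of_pow_eq_one (A : ValuationSubring L) {z : L} {n : ℕ} (hn : n ≠ 0)
    (hz : z ^ n = 1) : z ∈ A :=
  (A.valuation_le_one_iff z).mp (valuation_eq_one_of_pow_eq_one A hn hz).le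

/-- Integers have valuation at most one. -/
theorem valuation_intCast_le_one (A : ValuationSubring L) (a : ℤ) : A.valuation (a : L) ≤ 1 :=
  (A.valuation_le_one_iff _).mpr (intCast_mem A a)

/-- If `η ≠ 1` is an `n`-th root of unity congruent to `1` modulo the maximal ideal of `A`,
then `n` lies in the maximal ideal. -/
theorem valuation_natCast_lt_one_of_root (A : ValuationSubring L) {η : L} {n : ℕ}
    (hη : η ^ n = 1) (hη1 : η ≠ 1) (h : A.valuation (η - 1) < 1) : A.valuation (n : L) < 1 := by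
  have hsum : ∑ i ∈ Finset.range n, η ^ i = 0 := by
    have h1 : (∑ i ∈ Finset.range n, η ^ i) * (η - 1) = 0 := by rw [geom_sum_mul, hη, sub_self]
    rcases mul_eq_zero.mp h1 with h2 | h2
    · exact h2
    · exact absurd (sub_eq_zero.mp h2) hη1
  have hpow : ∀ i : ℕ, A.valuation (1 - η ^ i) < 1 := by
    intro i
    induction i with
    | zero => simp
    | succ i ih =>
      have e : 1 - η ^ (i + 1) = η * (1 - η ^ i) - (η - 1) := by ring
      rw [e]
      refine A.valuation.map_sub_lt ?_ h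
      rw [map_mul]
      have hη_le : A.valuation η ≤ 1 := by
        have e2 : η = (η - 1) + 1 := by ring
        rw [e2]
        exact A.valuation.map_add_le h.le (by simp)
      calc A.valuation η * A.valuation (1 - η ^ i) ≤ 1 * A.valuation (1 - η ^ i) := by gcongr
        _ < 1 := by rw [one_mul]; exact ih
  have hn : (n : L) = ∑ i ∈ Finset.range n, (1 - η ^ i) := by
    rw [Finset.sum_sub_distrib, hsum, sub_zero]
    simp
  rw [hn]
  exact A.valuation.map_sum_lt one_ne_zero (fun i _ => hpow i)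

/-- Two `p^m`-th roots of unity that are congruent modulo the maximal ideal of a valuation
subring lying over a prime `ℓ ≠ p` are equal. -/
theorem eq_of_sub_mem_nonunits (A : ValuationSubring L) {ℓ p : ℕ} (hℓ : ℓ.Prime) (hp : p.Prime)
    (hne : ℓ ≠ p) (hA : A.LiesOverPrime ℓ) {z w : L} {m : ℕ} (hz : z ^ (p ^ m) = 1)
    (hw : w ^ (p ^ m) = 1) (h : z - w ∈ A.nonunits) : z = w := by
  by_contra hzw
  have hpm : p ^ m ≠ 0 := pow_ne_zero _ hp.ne_zero
  have hw0 : w ≠ 0 := by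
    rintro rfl
    rw [zero_pow hpm] at hw
    exact zero_ne_one hw
  have hvw : A.valuation w = 1 := valuation_eq_one_of_pow_eq_one A hpm hw
  set η : L := z * w⁻¹ with hηdef
  have hη : η ^ (p ^ m) = 1 := by rw [hηdef, mul_pow, inv_pow, hz, hw]; simp
  have hη1 : η ≠ 1 := by
    intro h1
    apply hzw
    rw [hηdef] at h1
    field_simp at h1
    exact h1
  have hηv : A.valuation (η - 1) < 1 := by
    have e : η - 1 = (z - w) * w⁻¹ := by rw [hηdef]; field_simp
    rw [e, map_mul, map_inv₀, hvw, inv_one, mul_one]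
    exact A.mem_nonunits_iff.mp h
  have hpmv : A.valuation ((p ^ m : ℕ) : L) < 1 :=
    valuation_natCast_lt_one_of_root A hη hη1 hηv
  have hpv : A.valuation (p : L) < 1 := by
    by_contra hcon
    have hle : A.valuation (p : L) ≤ 1 := by
      have := valuation_intCast_le_one A (p : ℤ)
      rwa [Int.cast_natCast] at this
    have heq : A.valuation (p : L) = 1 := le_antisymm hle (not_lt.mp hcon)
    rw [Nat.cast_pow, map_pow, heq, one_pow] at hpmv
    exact lt_irrefl _ hpmv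
  have hℓv : A.valuation (ℓ : L) < 1 := A.mem_nonunits_iff.mp hA
  have hcop : Nat.Coprime ℓ p := (Nat.coprime_primes hℓ hp).mpr hne
  have hbez : (ℓ : ℤ) * Nat.gcdA ℓ p + (p : ℤ) * Nat.gcdB ℓ p = 1 := by
    have := Nat.gcd_eq_gcd_ab ℓ p
    rw [hcop.gcd_eq_one] at this
    exact_mod_cast this.symm
  have hone : (1 : L) = (ℓ : L) * (Nat.gcdA ℓ p : L) + (p : L) * (Nat.gcdB ℓ p : L) := by
    have := congrArg (fun t : ℤ => (t : L)) hbez
    simp only [Int.cast_add, Int.cast_mul, Int.cast_natCast, Int.cast_one] at this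
    exact this.symm
  have hlt : A.valuation (1 : L) < 1 := by
    rw [hone]
    refine A.valuation.map_add_lt ?_ ?_
    · rw [map_mul]
      calc A.valuation (ℓ : L) * A.valuation ((Nat.gcdA ℓ p : ℤ) : L)
          ≤ A.valuation (ℓ : L) * 1 := by gcongr; exact valuation_intCast_le_one A _
        _ < 1 := by rw [mul_one]; exact hℓv
    · rw [map_mul]
      calc A.valuation (p : L) * A.valuation ((Nat.gcdB ℓ p : ℤ) : L)
          ≤ A.valuation (p : L) * 1 := by gcongr; exact valuation_intCast_le_one A _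
        _ < 1 := by rw [mul_one]; exact hpv
  rw [map_one] at hlt
  exact lt_irrefl _ hlt

/-- A Frobenius element at `ℓ ≠ p` raises `p`-power roots of unity to the `ℓ`-th power. -/
theorem frobenius_apply_root (A : ValuationSubring L) {ℓ p : ℕ} (hℓ : ℓ.Prime) (hp : p.Prime)
    (hne : ℓ ≠ p) (hA : A.LiesOverPrime ℓ) {s : L ≃ₐ[K] L} (hs : A.IsFrobeniusAt s ℓ) {z : L}
    {m : ℕ} (hz : z ^ (p ^ m) = 1) : s z = z ^ ℓ := by
  have hpm : p ^ m ≠ 0 := pow_ne_zero _ hp.ne_zero
  refine eq_of_sub_mem_nonunits A hℓ hp hne hA (m := m) ?_ ?_ ?_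
  · rw [← map_pow, hz, map_one]
  · rw [← pow_mul, mul_comm, pow_mul, hz, one_pow]
  · exact sub_pow_mem_of_isFrobeniusAt A s ℓ hs z (mem_of_pow_eq_one A hpm hz)

/-- Powers of a Frobenius element at `ℓ ≠ p` on `p`-power roots of unity. -/
theorem frobenius_pow_apply_root (A : ValuationSubring L) {ℓ p : ℕ} (hℓ : ℓ.Prime) (hp : p.Prime)
    (hne : ℓ ≠ p) (hA : A.LiesOverPrime ℓ) {s : L ≃ₐ[K] L} (hs : A.IsFrobeniusAt s ℓ) {z : L}
    {m : ℕ} (hz : z ^ (p ^ m) = 1) (b : ℕ) : (s ^ b) z = z ^ (ℓ ^ b) := by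
  induction b with
  | zero => simp
  | succ b ih =>
    rw [pow_succ', AlgEquiv.mul_apply, ih, map_pow, frobenius_apply_root A hℓ hp hne hA hs hz,
      ← pow_mul, ← pow_succ']

/-- Inertia at `q ≠ p` fixes `p`-power roots of unity. -/
theorem inertia_apply_root (P : ValuationSubring L) {q p : ℕ} (hq : q.Prime) (hp : p.Prime)
    (hne : q ≠ p) (hP : P.LiesOverPrime q) {τ : L ≃ₐ[K] L} (hτ : τ ∈ P.inertiaSubgroupIn K)
    {z : L} {m : ℕ} (hz : z ^ (p ^ m) = 1) : τ z = z := by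
  have hpm : p ^ m ≠ 0 := pow_ne_zero _ hp.ne_zero
  refine eq_of_sub_mem_nonunits P hq hp hne hP (m := m) ?_ hz ?_
  · rw [← map_pow, hz, map_one]
  · exact sub_mem_of_mem_inertia P τ hτ z (mem_of_pow_eq_one P hpm hz)

end general

local notation "Qb" => AlgebraicClosure ℚ

/-- **The cyclotomic brick.**  There is a finite extension `L` of `ℚ` (the field of `p^m`-th
roots of unity) such that: if `s`, `s'` are Frobenius elements at primes `ℓ, ℓ' ≠ p`, `τ` lies
in an inertia group at a prime `q ≠ p`, and `s ^ b`, `s' ^ b'` agree on `L` with `g`, `g * τ`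
respectively, then `ℓ ^ b ≡ ℓ' ^ b'` modulo `p ^ m`. -/
theorem exists_field_pow_modEq (p : ℕ) (hp : p.Prime) (m : ℕ) :
    ∃ L : IntermediateField ℚ Qb, FiniteDimensional ℚ L ∧
      ∀ (l l' q b b' : ℕ) (A A' P : ValuationSubring Qb) (s s' g τ : Qb ≃ₐ[ℚ] Qb),
        l.Prime → l ≠ p → A.IsFrobeniusAt s l → A.LiesOverPrime l →
        l'.Prime → l' ≠ p → A'.IsFrobeniusAt s' l' → A'.LiesOverPrime l' →
        q.Prime → q ≠ p → P.LiesOverPrime q → τ ∈ P.inertiaSubgroupIn ℚ →
        (∀ x ∈ L, (s ^ b) x = g x) → (∀ x ∈ L, (s' ^ b') x = (g * τ) x) →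
        (l : ℤ) ^ b ≡ (l' : ℤ) ^ b' [ZMOD (p : ℤ) ^ m] := by
  have hpm : p ^ m ≠ 0 := pow_ne_zero _ hp.ne_zero
  have : NeZero (p ^ m) := ⟨hpm⟩
  obtain ⟨ζ, hζ⟩ := HasEnoughRootsOfUnity.exists_primitiveRoot Qb (p ^ m)
  have hζ1 : ζ ^ (p ^ m) = 1 := hζ.pow_eq_one
  have hint : IsIntegral ℚ ζ := (hζ.isIntegral (Nat.pos_of_ne_zero hpm)).tower_top
  refine ⟨IntermediateField.adjoin ℚ {ζ}, IntermediateField.adjoin.finiteDimensional hint, ?_⟩
  intro l l' q b b' A A' P s s' g τ hl hlp hs hA hl' hlp' hs' hA' hq hqp hP hτ hg hgτ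
  have hmem : ζ ∈ IntermediateField.adjoin ℚ {ζ} := IntermediateField.mem_adjoin_simple_self ℚ ζ
  have h1 : g ζ = ζ ^ (l ^ b) := by
    rw [← hg ζ hmem]; exact frobenius_pow_apply_root A hl hp hlp hA hs hζ1 b
  have h2 : g ζ = ζ ^ (l' ^ b') := by
    have h3 : (g * τ) ζ = g ζ := by
      rw [AlgEquiv.mul_apply, inertia_apply_root P hq hp hqp hP hτ hζ1]
    rw [← h3, ← hgτ ζ hmem]; exact frobenius_pow_apply_root A' hl' hp hlp' hA' hs' hζ1 b'
  have h4 : ζ ^ (l ^ b) = ζ ^ (l' ^ b') := h1.symm.trans h2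
  have hζ0 : ζ ≠ 0 := hζ.ne_zero hpm
  have h5 : l ^ b ≡ l' ^ b' [MOD p ^ m] := by
    have hu : (Units.mk0 ζ hζ0) ^ (l ^ b) = (Units.mk0 ζ hζ0) ^ (l' ^ b') := by
      ext; simpa using h4
    have := pow_eq_pow_iff_modEq.mp hu
    rwa [← orderOf_units, Units.val_mk0, ← hζ.eq_orderOf] at this
  have h6 := (Int.natCast_modEq_iff).mpr h5
  simpa using h6

end Fermat.Agent.S31.Cyclo
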