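import Mathlib

/-!
# S31, brick B3: Lucas (Dickson) sequences

`lucasSeq t ℓ b` is the sequence `2, t, t² - 2ℓ, …` with `E (b+2) = t * E (b+1) - ℓ * E b`.
* `pow_add_pow_eq_lucasSeq`: if `x + y = t` and `x * y = y * x = ℓ` then `x ^ b + y ^ b = E b`.
* `trace_pow_eq_lucasSeq`: for an endomorphism `f` of a free module of rank `2` with characteristic
  polynomial `X² - a X + ℓ`, `tr (f ^ b) = E b` (with `t = a`).
* `trace_mul_mem_of_forall_mem_smul_top`: if `f v ∈ I • ⊤` for all `v` then `tr (h * f) ∈ I`.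
-/

set_option autoImplicit false

open Polynomial

namespace Fermat.Agent.S31.Dickson

/-- The Lucas sequence `E 0 = 2`, `E 1 = t`, `E (b+2) = t * E (b+1) - ℓ * E b` in a ring. -/
def lucasSeq {M : Type*} [Ring M] (t : M) (ℓ : ℕ) : ℕ → M
  | 0 => 2
  | 1 => t
  | (b + 2) => t * lucasSeq t ℓ (b + 1) - (ℓ : M) * lucasSeq t ℓ b

@[simp] theorem lucasSeq_zero {M : Type*} [Ring M] (t : M) (ℓ : ℕ) : lucasSeq t ℓ 0 = 2 := rfl

@[simp] theorem lucasSeq_one {M : Type*} [Ring M] (t : M) (ℓ : ℕ) : lucasSeq t ℓ 1 = t := rfl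

theorem lucasSeq_add_two {M : Type*} [Ring M] (t : M) (ℓ : ℕ) (b : ℕ) :
    lucasSeq t ℓ (b + 2) = t * lucasSeq t ℓ (b + 1) - (ℓ : M) * lucasSeq t ℓ b := rfl

theorem map_lucasSeq {M M' : Type*} [Ring M] [Ring M'] (φ : M →+* M') (t : M) (ℓ : ℕ) (b : ℕ) :
    φ (lucasSeq t ℓ b) = lucasSeq (φ t) ℓ b := by
  induction b using Nat.strong_induction_on with
  | _ b ih =>
    match b with
    | 0 => rw [lucasSeq_zero, lucasSeq_zero, map_ofNat]
    | 1 => rw [lucasSeq_one, lucasSeq_one]
    | (b + 2) =>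
      rw [lucasSeq_add_two, lucasSeq_add_two, map_sub, map_mul, map_mul, map_natCast,
        ih (b + 1) (by omega), ih b (by omega)]

/-- If `x + y = t`, `x * y = ℓ = y * x`, then `x ^ b + y ^ b` is the Lucas sequence. -/
theorem pow_add_pow_eq_lucasSeq {M : Type*} [Ring M] (x y t : M) (ℓ : ℕ)
    (hxy : x * y = (ℓ : M)) (hyx : y * x = (ℓ : M)) (hadd : x + y = t) (b : ℕ) :
    x ^ b + y ^ b = lucasSeq t ℓ b := by
  induction b using Nat.strong_induction_on with
  | _ b ih =>
    match b with
    | 0 => rw [pow_zero, pow_zero, lucasSeq_zero]; norm_num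
    | 1 => rw [pow_one, pow_one, lucasSeq_one]; exact hadd
    | (b + 2) =>
      rw [lucasSeq_add_two, ← ih (b + 1) (by omega), ← ih b (by omega), ← hadd]
      have h1 : x * y ^ (b + 1) = (ℓ : M) * y ^ b := by rw [pow_succ', ← mul_assoc, hxy]
      have h2 : y * x ^ (b + 1) = (ℓ : M) * x ^ b := by rw [pow_succ', ← mul_assoc, hyx]
      have h3 : (x + y) * (x ^ (b + 1) + y ^ (b + 1))
          = x ^ (b + 2) + y ^ (b + 2) + ((ℓ : M) * x ^ b + (ℓ : M) * y ^ b) := by
        rw [add_mul, mul_add, mul_add, h1, h2, ← pow_succ', ← pow_succ']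
        abel
      rw [h3, mul_add]
      abel

section Trace

variable {A : Type*} [CommRing A] {V : Type*} [AddCommGroup V] [Module A V]

/-- Linear functionals map `I • ⊤` into `I`. -/
theorem map_mem_of_mem_smul_top (I : Ideal A) (φ : V →ₗ[A] A) {x : V}
    (hx : x ∈ I • (⊤ : Submodule A V)) : φ x ∈ I := by
  refine Submodule.smul_induction_on hx ?_ ?_
  · intro a ha v _
    rw [map_smul, smul_eq_mul]
    exact I.mul_mem_right _ ha
  · intro x y hx hy
    rw [map_add]
    exact I.add_mem hx hy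

variable [Module.Free A V] [Module.Finite A V]

/-- If `f v ∈ I • ⊤` for all `v`, then `tr (h * f) ∈ I`. -/
theorem trace_mul_mem_of_forall_mem_smul_top (I : Ideal A) (f h : Module.End A V)
    (hf : ∀ v, f v ∈ I • (⊤ : Submodule A V)) : LinearMap.trace A V (h * f) ∈ I := by
  classical
  let b := Module.Free.chooseBasis A V
  rw [LinearMap.trace_eq_matrix_trace A b, Matrix.trace]
  refine I.sum_mem fun i _ => ?_
  rw [Matrix.diag_apply, LinearMap.toMatrix_apply]
  have : (b.repr ((h * f) (b i))) i = ((b.coord i).comp h) (f (b i)) := rfl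
  rw [this]
  exact map_mem_of_mem_smul_top I _ (hf (b i))

/-- For an endomorphism of a free module of rank `2` with characteristic polynomial
`X² - a X + ℓ`, the traces of its powers form the Lucas sequence. -/
theorem trace_pow_eq_lucasSeq [Nontrivial A] (h2 : Module.finrank A V = 2) (f : Module.End A V)
    (a : A) (ℓ : ℕ) (hf : LinearMap.charpoly f = X ^ 2 - C a * X + C (ℓ : A)) (b : ℕ) :
    LinearMap.trace A V (f ^ b) = lucasSeq a ℓ b := by
  have hCH : f ^ 2 - a • f + (ℓ : A) • (1 : Module.End A V) = 0 := by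
    have h := LinearMap.aeval_self_charpoly f
    rw [hf] at h
    simp only [map_add, map_sub, map_mul, map_pow, aeval_X, aeval_C] at h
    rw [Algebra.algebraMap_eq_smul_one, Algebra.algebraMap_eq_smul_one, smul_mul_assoc,
      one_mul] at h
    exact h
  have htr1 : LinearMap.trace A V f = a := by
    classical
    let bs := Module.Free.chooseBasis A V
    rw [LinearMap.trace_eq_matrix_trace A bs, Matrix.trace_eq_neg_charpoly_nextCoeff,
      LinearMap.charpoly_toMatrix, hf]
    have hdeg : (X ^ 2 - C a * X + C (ℓ : A) : A[X]).natDegree = 2 := by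
      compute_degree!
    rw [Polynomial.nextCoeff, if_neg (by rw [hdeg]; norm_num), hdeg]
    simp [Polynomial.coeff_C]
  induction b using Nat.strong_induction_on with
  | _ b ih =>
    match b with
    | 0 =>
      rw [pow_zero, LinearMap.trace_one, h2, lucasSeq_zero]
      norm_num
    | 1 => rw [pow_one, htr1, lucasSeq_one]
    | (b + 2) =>
      have hrec : f ^ (b + 2) = a • f ^ (b + 1) - (ℓ : A) • f ^ b := by
        have h4 : f ^ 2 = a • f - (ℓ : A) • (1 : Module.End A V) := by
          rw [← sub_eq_zero, ← hCH]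
          abel
        calc f ^ (b + 2) = f ^ 2 * f ^ b := by rw [← pow_add, add_comm]
          _ = (a • f - (ℓ : A) • (1 : Module.End A V)) * f ^ b := by rw [h4]
          _ = a • f ^ (b + 1) - (ℓ : A) • f ^ b := by
            rw [sub_mul, smul_mul_assoc, smul_mul_assoc, one_mul, ← pow_succ']
      rw [hrec, map_sub, map_smul, map_smul, ih (b + 1) (by omega), ih b (by omega),
        lucasSeq_add_two, smul_eq_mul, smul_eq_mul]

end Trace

end Fermat.Agent.S31.Dickson
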