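/-
S31 brick (helper71, captain): the `p`-adic congruence between the Lucas elements of the integer
Hecke matrices of an `ESData`, forced by two Frobenius powers which induce the same matrix
modulo `p ^ m`.

* `lucasSeq_relation` : `x² - t x + ℓ = 0` (with `x`, `t` commuting) implies
  `(x^b)² - E_b(t) x^b + ℓ^b = 0`.
* `es_pow` : the Eichler–Shimura relation for a power of a Frobenius element.
* `dvd_lucasSeq_sub` : the congruence.
-/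
import Mathlib
import Fermat.Agent.S30.Defs
import Fermat.Agent.S31.Dickson

set_option autoImplicit false

namespace Fermat.Agent.S31.Congr

open Fermat.Agent.S30 Fermat.Agent.S31.Dickson

/-- If `x² - t x + ℓ = 0` and `x` commutes with `t`, then `(x^b)² - E_b(t) x^b + ℓ^b = 0`. -/
theorem lucasSeq_relation {M : Type*} [Ring M] (x t : M) (ℓ : ℕ) (hxt : Commute x t)
    (h : x * x - t * x + (ℓ : M) = 0) (b : ℕ) :
    x ^ b * x ^ b - lucasSeq t ℓ b * x ^ b + ((ℓ ^ b : ℕ) : M) = 0 := by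
  have hl : (ℓ : M) = t * x - x * x := by
    have h1 := h
    rw [sub_add_eq_add_sub, sub_eq_zero] at h1
    rw [← h1]; abel
  have hxy : x * (t - x) = (ℓ : M) := by rw [mul_sub, hxt.eq, hl]
  have hyx : (t - x) * x = (ℓ : M) := by rw [sub_mul, hl]
  have hadd : x + (t - x) = t := by abel
  have hcomm : Commute (t - x) x := (hxt.sub_right (Commute.refl x)).symm
  rw [← pow_add_pow_eq_lucasSeq x (t - x) t ℓ hxy hyx hadd b, add_mul, Nat.cast_pow, ← hyx,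
    hcomm.mul_pow]
  abel

variable {N p : ℕ} [NeZero N] [Fact p.Prime] (D : ESData N p)

/-- Integer matrices to `p`-adic matrices. -/
noncomputable abbrev castM : Matrix (Fin D.r) (Fin D.r) ℤ →+* Matrix (Fin D.r) (Fin D.r) ℤ_[p] :=
  (Int.castRingHom ℤ_[p]).mapMatrix

/-- Reduction of `p`-adic matrices modulo `p ^ m`. -/
noncomputable abbrev redM (m : ℕ) : Matrix (Fin D.r) (Fin D.r) ℤ_[p] →+*
    Matrix (Fin D.r) (Fin D.r) (ℤ_[p] ⧸ (Ideal.span {(p : ℤ_[p]) ^ m} : Ideal ℤ_[p])) :=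
  (Ideal.Quotient.mk (Ideal.span {(p : ℤ_[p]) ^ m} : Ideal ℤ_[p])).mapMatrix

/-- The Eichler–Shimura relation for a power of a Frobenius element. -/
theorem es_pow (ℓ : ℕ) (hℓ : ℓ.Prime) (hℓN : ¬ ℓ ∣ N) (hℓp : ℓ ≠ p)
    (A : ValuationSubring (AlgebraicClosure ℚ)) (hA : A.LiesOverPrime ℓ) (s : GQ)
    (hs : A.IsFrobeniusAt s ℓ) (b : ℕ) :
    D.ρ (s ^ b) * D.ρ (s ^ b) - castM D (lucasSeq (D.t ℓ) ℓ b) * D.ρ (s ^ b)
      + ((ℓ ^ b : ℕ) : Matrix (Fin D.r) (Fin D.r) ℤ_[p]) = 0 := by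
  have h := lucasSeq_relation (D.ρ s) ((D.t ℓ).map (Int.castRingHom ℤ_[p])) ℓ (D.ρ_comm s ℓ)
    (D.es ℓ hℓ hℓN hℓp A hA s hs) b
  rw [map_lucasSeq, map_pow]
  exact h

/-- Matrices congruent entrywise modulo `p ^ m` have the same reduction. -/
theorem redM_eq_of_sub_mem (m : ℕ) (X Y : Matrix (Fin D.r) (Fin D.r) ℤ_[p])
    (h : ∀ i j, (X - Y) i j ∈ (Ideal.span {(p : ℤ_[p]) ^ m} : Ideal ℤ_[p])) :
    redM D m X = redM D m Y := by
  ext i j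
  rw [RingHom.mapMatrix_apply, RingHom.mapMatrix_apply, Matrix.map_apply, Matrix.map_apply,
    Ideal.Quotient.eq]
  exact h i j

/-- **The congruence.** If `s ^ b` and `s' ^ b'` (Frobenius powers at `ℓ`, `ℓ'`) induce modulo
`p ^ m` the matrices of `g` and `g'`, with `D.ρ g = D.ρ g'` and `ℓ ^ b ≡ ℓ' ^ b'` modulo `p ^ m`,
then the integer matrix `E_b(t_ℓ) - E_b'(t_ℓ')` is divisible by `p ^ m`. -/
theorem dvd_lucasSeq_sub (m : ℕ) (g g' : GQ) (hρ : D.ρ g = D.ρ g')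
    (ℓ : ℕ) (hℓ : ℓ.Prime) (hℓN : ¬ ℓ ∣ N) (hℓp : ℓ ≠ p)
    (A : ValuationSubring (AlgebraicClosure ℚ)) (hA : A.LiesOverPrime ℓ) (s : GQ)
    (hs : A.IsFrobeniusAt s ℓ) (b : ℕ)
    (hsb : ∀ i j, (D.ρ (s ^ b) - D.ρ g) i j ∈ (Ideal.span {(p : ℤ_[p]) ^ m} : Ideal ℤ_[p]))
    (ℓ' : ℕ) (hℓ' : ℓ'.Prime) (hℓ'N : ¬ ℓ' ∣ N) (hℓ'p : ℓ' ≠ p)
    (A' : ValuationSubring (AlgebraicClosure ℚ)) (hA' : A'.LiesOverPrime ℓ') (s' : GQ)
    (hs' : A'.IsFrobeniusAt s' ℓ') (b' : ℕ)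
    (hsb' : ∀ i j, (D.ρ (s' ^ b') - D.ρ g') i j ∈ (Ideal.span {(p : ℤ_[p]) ^ m} : Ideal ℤ_[p]))
    (hcong : (p : ℤ) ^ m ∣ (ℓ : ℤ) ^ b - (ℓ' : ℤ) ^ b') :
    ∀ i j, (p : ℤ) ^ m ∣ (lucasSeq (D.t ℓ) ℓ b - lucasSeq (D.t ℓ') ℓ' b') i j := by
  set P := lucasSeq (D.t ℓ) ℓ b with hP
  set P' := lucasSeq (D.t ℓ') ℓ' b' with hP'
  set Gb := redM D m (D.ρ g) with hGb
  have e1 : redM D m (D.ρ (s ^ b)) = Gb := redM_eq_of_sub_mem D m _ _ hsb
  have e2 : redM D m (D.ρ (s' ^ b')) = Gb := by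
    rw [hGb, hρ]
    exact redM_eq_of_sub_mem D m _ _ hsb'
  have r1 := congrArg (redM D m) (es_pow D ℓ hℓ hℓN hℓp A hA s hs b)
  have r2 := congrArg (redM D m) (es_pow D ℓ' hℓ' hℓ'N hℓ'p A' hA' s' hs' b')
  rw [map_add, map_sub, map_mul, map_mul, e1, map_natCast, map_zero] at r1
  rw [map_add, map_sub, map_mul, map_mul, e2, map_natCast, map_zero] at r2
  -- the two constants agree modulo `p ^ m`
  have hnat : ((ℓ ^ b : ℕ) : Matrix (Fin D.r) (Fin D.r)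
        (ℤ_[p] ⧸ (Ideal.span {(p : ℤ_[p]) ^ m} : Ideal ℤ_[p])))
      = ((ℓ' ^ b' : ℕ) : Matrix (Fin D.r) (Fin D.r)
        (ℤ_[p] ⧸ (Ideal.span {(p : ℤ_[p]) ^ m} : Ideal ℤ_[p]))) := by
    obtain ⟨k, hk⟩ := hcong
    have h0 : (Ideal.Quotient.mk (Ideal.span {(p : ℤ_[p]) ^ m} : Ideal ℤ_[p])) ((p : ℤ_[p]) ^ m)
        = 0 := Ideal.Quotient.eq_zero_iff_mem.mpr (Ideal.subset_span rfl)
    have h1 : ((ℓ ^ b : ℕ) : ℤ_[p] ⧸ (Ideal.span {(p : ℤ_[p]) ^ m} : Ideal ℤ_[p]))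
        = ((ℓ' ^ b' : ℕ) : ℤ_[p] ⧸ (Ideal.span {(p : ℤ_[p]) ^ m} : Ideal ℤ_[p])) := by
      have h2 := congrArg
        (fun z : ℤ => ((z : ℤ_[p] ⧸ (Ideal.span {(p : ℤ_[p]) ^ m} : Ideal ℤ_[p])))) hk
      simp only [Int.cast_sub, Int.cast_pow, Int.cast_natCast, Int.cast_mul] at h2
      have h3 : ((p : ℤ_[p] ⧸ (Ideal.span {(p : ℤ_[p]) ^ m} : Ideal ℤ_[p]))) ^ m = 0 := by
        rw [← h0, map_pow, map_natCast]
      rw [h3, zero_mul, sub_eq_zero] at h2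
      rw [Nat.cast_pow, Nat.cast_pow]
      exact h2
    rw [← map_natCast (Matrix.scalar (Fin D.r)), ← map_natCast (Matrix.scalar (Fin D.r)), h1]
  rw [hnat] at r1
  have hsub : (redM D m (castM D P) - redM D m (castM D P')) * Gb = 0 := by
    rw [sub_mul]
    have h12 := r1.trans r2.symm
    have h4 : redM D m (castM D P) * Gb = redM D m (castM D P') * Gb := by
      have h5 : Gb * Gb + ((ℓ' ^ b' : ℕ) : Matrix (Fin D.r) (Fin D.r)
          (ℤ_[p] ⧸ (Ideal.span {(p : ℤ_[p]) ^ m} : Ideal ℤ_[p])))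
          - (Gb * Gb - redM D m (castM D P) * Gb + ((ℓ' ^ b' : ℕ) : Matrix (Fin D.r) (Fin D.r)
          (ℤ_[p] ⧸ (Ideal.span {(p : ℤ_[p]) ^ m} : Ideal ℤ_[p]))))
          = Gb * Gb + ((ℓ' ^ b' : ℕ) : Matrix (Fin D.r) (Fin D.r)
          (ℤ_[p] ⧸ (Ideal.span {(p : ℤ_[p]) ^ m} : Ideal ℤ_[p])))
          - (Gb * Gb - redM D m (castM D P') * Gb + ((ℓ' ^ b' : ℕ) : Matrix (Fin D.r) (Fin D.r)
          (ℤ_[p] ⧸ (Ideal.span {(p : ℤ_[p]) ^ m} : Ideal ℤ_[p])))) := by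
        rw [h12]
      have h6 : ∀ a : Matrix (Fin D.r) (Fin D.r)
          (ℤ_[p] ⧸ (Ideal.span {(p : ℤ_[p]) ^ m} : Ideal ℤ_[p])),
          Gb * Gb + ((ℓ' ^ b' : ℕ) : Matrix (Fin D.r) (Fin D.r)
            (ℤ_[p] ⧸ (Ideal.span {(p : ℤ_[p]) ^ m} : Ideal ℤ_[p])))
            - (Gb * Gb - a + ((ℓ' ^ b' : ℕ) : Matrix (Fin D.r) (Fin D.r)
            (ℤ_[p] ⧸ (Ideal.span {(p : ℤ_[p]) ^ m} : Ideal ℤ_[p])))) = a := by
        intro a; abel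
      rw [h6, h6] at h5
      exact h5
    rw [h4, sub_self]
  have hinv : Gb * redM D m (D.ρ g⁻¹) = 1 := by
    rw [hGb, ← map_mul, ← map_mul, mul_inv_cancel, map_one, map_one]
  have hzero : redM D m (castM D P) - redM D m (castM D P') = 0 := by
    have h7 := congrArg (fun Z => Z * redM D m (D.ρ g⁻¹)) hsub
    simp only [zero_mul] at h7
    rwa [mul_assoc, hinv, mul_one] at h7
  intro i j
  have h1 := congrFun (congrFun hzero i) j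
  rw [← map_sub, ← map_sub] at h1
  simp only [RingHom.mapMatrix_apply, Matrix.map_apply, Matrix.zero_apply] at h1
  rw [Ideal.Quotient.eq_zero_iff_mem, ← PadicInt.norm_le_pow_iff_mem_span_pow] at h1
  exact PadicInt.norm_int_le_pow_iff_dvd.mp h1

end Fermat.Agent.S31.Congr
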