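import Fermat.Agent.S30.Defs
import Fermat.Agent.S31.Dickson

/-!
# S31, brick B4: the Hecke pairs

For `D : ESData N p` and a set of primes `S ∋ p`, `heckePairs D S` is the subring of
`M_r(ℤ) × heckeAlgebra N 2 S` generated by the pairs `(t_ℓ, T_ℓ)`, `ℓ ∉ S`, `ℓ ∤ N`.
* `heckePairs_snd_eq_zero`: the first projection is injective on it (by `D.occ`).
* `lucasSeq_mem_heckePairs`: it contains the Lucas pairs.
* `exists_sat_bound`: `p`-saturation bound: there is `e` such that a pair whose matrix is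
  divisible by `p ^ (n + e)` has Hecke component divisible by `p ^ n`.
-/

set_option autoImplicit false

namespace Fermat.Agent.S31.HeckePairs

open Fermat.Agent.S30 CuspForm Fermat.Agent.S31.Dickson

variable {N p : ℕ} [NeZero N] [Fact p.Prime]

/-- The generating pairs `(t_ℓ, T_ℓ)`. -/
def heckeGenPairs (D : ESData N p) (S : Set ℕ) :
    Set (Matrix (Fin D.r) (Fin D.r) ℤ × heckeAlgebra N 2 S) :=
  {x | ∃ (ℓ : ℕ) (hℓ : ℓ.Prime) (hℓN : ¬ ℓ ∣ N) (hℓS : ℓ ∉ S),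
    x = (D.t ℓ, heckeAlgebra.T hℓ hℓN hℓS)}

/-- The subring generated by the pairs `(t_ℓ, T_ℓ)`. -/
def heckePairs (D : ESData N p) (S : Set ℕ) :
    Subring (Matrix (Fin D.r) (Fin D.r) ℤ × heckeAlgebra N 2 S) :=
  Subring.closure (heckeGenPairs D S)

theorem gen_mem_heckePairs (D : ESData N p) (S : Set ℕ) {ℓ : ℕ} (hℓ : ℓ.Prime) (hℓN : ¬ ℓ ∣ N)
    (hℓS : ℓ ∉ S) : (D.t ℓ, heckeAlgebra.T hℓ hℓN hℓS) ∈ heckePairs D S :=
  Subring.subset_closure ⟨ℓ, hℓ, hℓN, hℓS, rfl⟩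

/-- Equivariance of the embedding `Φ` for every pair. -/
theorem heckePairs_equivariant (D : ESData N p) (S : Set ℕ) (hpS : p ∈ S)
    (Φ : CuspForm (CongruenceSubgroup.Gamma0 N) 2 →ₗ[ℂ] (Fin D.r → ℂ))
    (hΦ : ∀ (ℓ : ℕ) (hℓ : ℓ.Prime) (hℓN : ¬ ℓ ∣ N), ℓ ≠ p →
        ∀ f : CuspForm (CongruenceSubgroup.Gamma0 N) 2,
          Φ (CuspForm.heckeTLin 2 hℓ hℓN f) = ((D.t ℓ).map (Int.castRingHom ℂ)).mulVec (Φ f))
    {x : Matrix (Fin D.r) (Fin D.r) ℤ × heckeAlgebra N 2 S} (hx : x ∈ heckePairs D S)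
    (f : CuspForm (CongruenceSubgroup.Gamma0 N) 2) :
    Φ ((x.2 : Module.End ℂ (CuspForm (CongruenceSubgroup.Gamma0 N) 2)) f)
      = ((Int.castRingHom ℂ).mapMatrix x.1).mulVec (Φ f) := by
  induction hx using Subring.closure_induction generalizing f with
  | mem x hx =>
    obtain ⟨ℓ, hℓ, hℓN, hℓS, rfl⟩ := hx
    have hℓp : ℓ ≠ p := fun h => hℓS (h ▸ hpS)
    exact hΦ ℓ hℓ hℓN hℓp f
  | zero => simp
  | one => simp
  | add x y _ _ hx hy =>
    simp only [Prod.snd_add, Prod.fst_add, Subalgebra.coe_add, LinearMap.add_apply, map_add,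
      Matrix.add_mulVec]
    rw [hx f, hy f]
  | neg x _ hx =>
    simp only [Prod.snd_neg, Prod.fst_neg, Subalgebra.coe_neg, LinearMap.neg_apply, map_neg,
      Matrix.neg_mulVec]
    rw [hx f]
  | mul x y _ _ hx hy =>
    simp only [Prod.snd_mul, Prod.fst_mul, Subalgebra.coe_mul, Module.End.mul_apply, map_mul]
    rw [hx, hy, Matrix.mulVec_mulVec]

/-- A pair with zero matrix has zero Hecke component. -/
theorem heckePairs_snd_eq_zero (D : ESData N p) (S : Set ℕ) (hpS : p ∈ S)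
    {x : Matrix (Fin D.r) (Fin D.r) ℤ × heckeAlgebra N 2 S} (hx : x ∈ heckePairs D S)
    (h1 : x.1 = 0) : x.2 = 0 := by
  obtain ⟨Φ, hinj, hΦ⟩ := D.occ
  apply Subtype.ext
  apply LinearMap.ext
  intro f
  apply hinj
  rw [heckePairs_equivariant D S hpS Φ hΦ hx f, h1]
  simp

/-- The Lucas pairs lie in `heckePairs`. -/
theorem lucasSeq_mem_heckePairs (D : ESData N p) (S : Set ℕ) {ℓ : ℕ} (hℓ : ℓ.Prime)
    (hℓN : ¬ ℓ ∣ N) (hℓS : ℓ ∉ S) (b : ℕ) :
    (lucasSeq (D.t ℓ) ℓ b, lucasSeq (heckeAlgebra.T hℓ hℓN hℓS : heckeAlgebra N 2 S) ℓ b)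
      ∈ heckePairs D S := by
  have key : ∀ b, lucasSeq ((D.t ℓ, heckeAlgebra.T hℓ hℓN hℓS) :
      Matrix (Fin D.r) (Fin D.r) ℤ × heckeAlgebra N 2 S) ℓ b ∈ heckePairs D S := by
    intro b
    induction b using Nat.strong_induction_on with
    | _ b ih =>
      match b with
      | 0 =>
        rw [lucasSeq_zero]
        exact ofNat_mem _ 2
      | 1 =>
        rw [lucasSeq_one]
        exact gen_mem_heckePairs D S hℓ hℓN hℓS
      | (b + 2) =>
        rw [lucasSeq_add_two]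
        exact Subring.sub_mem _ (Subring.mul_mem _ (gen_mem_heckePairs D S hℓ hℓN hℓS)
          (ih (b + 1) (by omega))) (Subring.mul_mem _ (natCast_mem _ ℓ) (ih b (by omega)))
  have h1 := map_lucasSeq (RingHom.fst (Matrix (Fin D.r) (Fin D.r) ℤ) (heckeAlgebra N 2 S))
    (D.t ℓ, heckeAlgebra.T hℓ hℓN hℓS) ℓ b
  have h2 := map_lucasSeq (RingHom.snd (Matrix (Fin D.r) (Fin D.r) ℤ) (heckeAlgebra N 2 S))
    (D.t ℓ, heckeAlgebra.T hℓ hℓN hℓS) ℓ b
  simp only [RingHom.coe_fst, RingHom.coe_snd] at h1 h2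
  have h3 := key b
  rwa [← Prod.mk.eta (p := lucasSeq ((D.t ℓ, heckeAlgebra.T hℓ hℓN hℓS) :
      Matrix (Fin D.r) (Fin D.r) ℤ × heckeAlgebra N 2 S) ℓ b), h1, h2] at h3

/-- The additive group of matrices occurring in `heckePairs`, as a `ℤ`-submodule. -/
def heckeMatrices (D : ESData N p) (S : Set ℕ) : Submodule ℤ (Matrix (Fin D.r) (Fin D.r) ℤ) :=
  AddSubgroup.toIntSubmodule
    ((heckePairs D S).toAddSubgroup.map
      (AddMonoidHom.fst (Matrix (Fin D.r) (Fin D.r) ℤ) (heckeAlgebra N 2 S)))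

theorem mem_heckeMatrices (D : ESData N p) (S : Set ℕ) (X : Matrix (Fin D.r) (Fin D.r) ℤ) :
    X ∈ heckeMatrices D S ↔ ∃ x ∈ heckePairs D S, x.1 = X := by
  show X ∈ ((heckePairs D S).toAddSubgroup.map
      (AddMonoidHom.fst (Matrix (Fin D.r) (Fin D.r) ℤ) (heckeAlgebra N 2 S))) ↔ _
  rw [AddSubgroup.mem_map]
  rfl

/-- `p`-saturation bound. -/
theorem exists_sat_bound (D : ESData N p) (S : Set ℕ) (hpS : p ∈ S) :
    ∃ e : ℕ, ∀ (n : ℕ) (x : Matrix (Fin D.r) (Fin D.r) ℤ × heckeAlgebra N 2 S),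
      x ∈ heckePairs D S → (∀ i j, (p : ℤ) ^ (n + e) ∣ x.1 i j) →
        ∃ y : heckeAlgebra N 2 S, x.2 = (p : heckeAlgebra N 2 S) ^ n * y := by
  -- the ascending chain `Sat k = {X | p ^ k • X ∈ heckeMatrices}`
  let Sat : ℕ →o Submodule ℤ (Matrix (Fin D.r) (Fin D.r) ℤ) :=
    { toFun := fun k => (heckeMatrices D S).comap
        (((p : ℤ) ^ k) • (LinearMap.id : Matrix (Fin D.r) (Fin D.r) ℤ →ₗ[ℤ] _))
      monotone' := by
        refine monotone_nat_of_le_succ fun k X hX => ?_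
        simp only [Submodule.mem_comap, LinearMap.smul_apply, LinearMap.id_coe, id_eq] at hX ⊢
        rw [pow_succ', mul_smul]
        exact Submodule.smul_mem _ _ hX }
  obtain ⟨e, he⟩ := (monotone_stabilizes_iff_noetherian
    (R := ℤ) (M := Matrix (Fin D.r) (Fin D.r) ℤ)).mpr inferInstance Sat
  refine ⟨e, fun n x hx hdiv => ?_⟩
  -- `x.1 = p ^ (n + e) • X`
  choose c hc using hdiv
  let X : Matrix (Fin D.r) (Fin D.r) ℤ := Matrix.of c
  have hX : x.1 = ((p : ℤ) ^ (n + e)) • X := by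
    ext i j
    rw [Matrix.smul_apply, smul_eq_mul]
    exact hc i j
  have hXmem : X ∈ Sat (n + e) := by
    show ((p : ℤ) ^ (n + e)) • X ∈ heckeMatrices D S
    rw [← hX, mem_heckeMatrices]
    exact ⟨x, hx, rfl⟩
  rw [← he (n + e) (Nat.le_add_left e n)] at hXmem
  have hXe : ((p : ℤ) ^ e) • X ∈ heckeMatrices D S := hXmem
  obtain ⟨y, hy, hy1⟩ := (mem_heckeMatrices D S _).mp hXe
  refine ⟨y.2, ?_⟩
  have hz : x - ((p : ℤ) ^ n) • y ∈ heckePairs D S :=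
    Subring.sub_mem _ hx (Subring.zsmul_mem _ hy _)
  have hz1 : (x - ((p : ℤ) ^ n) • y).1 = 0 := by
    rw [Prod.fst_sub, Prod.smul_fst, hy1, hX, smul_smul, ← pow_add, sub_self]
  have hz2 := heckePairs_snd_eq_zero D S hpS hz hz1
  rw [Prod.snd_sub, Prod.smul_snd, sub_eq_zero] at hz2
  rw [hz2, zsmul_eq_mul]
  push_cast
  rfl

end Fermat.Agent.S31.HeckePairs
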