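import Mathlib
import Fermat.Prelude.Def_GaloisRep_Adic
import Fermat.Agent.S30.Defs

/-!
# Finite-level congruences for S31

* `trace_mem_of_forall_mem_smul`: an endomorphism of a finite free module with image in `I • ⊤`
  has trace in `I`.
* `exists_level_trace`: for an adic Galois representation `ρ` over a local ring `A` and `n`,
  there is a finite extension `L` of `ℚ` such that `g = h` on `L` implies
  `tr ρ(g) ≡ tr ρ(h)` modulo `𝔪 ^ n`.
* `exists_level_esData`: the same for the matrices of an `ESData` modulo `p ^ m`.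
* `exists_level_three`: the three level fields put together.
-/

set_option autoImplicit false

namespace Fermat.Agent.S31.Level

open Fermat.Agent.S30

local notation "Qb" => AlgebraicClosure ℚ

section trace

variable {A : Type*} [CommRing A] {V : Type*} [AddCommGroup V] [Module A V]

/-- Coordinates of elements of `I • ⊤` lie in `I`. -/
theorem repr_mem_of_mem_smul {ι : Type*} (b : Module.Basis ι A V) (I : Ideal A) {x : V}
    (hx : x ∈ I • (⊤ : Submodule A V)) (i : ι) : b.repr x i ∈ I := by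
  refine Submodule.smul_induction_on (p := fun x => b.repr x i ∈ I) hx ?_ ?_
  · intro a ha w _
    rw [map_smul, Finsupp.smul_apply, smul_eq_mul]
    exact I.mul_mem_right _ ha
  · intro x y hx hy
    rw [map_add, Finsupp.add_apply]
    exact I.add_mem hx hy

/-- An endomorphism of a finite free module with image in `I • ⊤` has trace in `I`. -/
theorem trace_mem_of_forall_mem_smul [Module.Free A V] [Module.Finite A V] (I : Ideal A)
    (f : Module.End A V) (hf : ∀ v, f v ∈ I • (⊤ : Submodule A V)) :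
    LinearMap.trace A V f ∈ I := by
  classical
  let b := Module.Free.chooseBasis A V
  rw [LinearMap.trace_eq_matrix_trace A b f, Matrix.trace]
  refine I.sum_mem fun i _ => ?_
  rw [Matrix.diag_apply, LinearMap.toMatrix_apply]
  exact repr_mem_of_mem_smul b I (hf _) i

/-- Linear maps preserve `I • ⊤`. -/
theorem map_mem_smul_top (I : Ideal A) (f : Module.End A V) {x : V}
    (hx : x ∈ I • (⊤ : Submodule A V)) : f x ∈ I • (⊤ : Submodule A V) := by
  refine Submodule.smul_induction_on (p := fun x => f x ∈ I • (⊤ : Submodule A V)) hx ?_ ?_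
  · intro a ha w _
    rw [map_smul]
    exact Submodule.smul_mem_smul ha Submodule.mem_top
  · intro x y hx hy
    rw [map_add]
    exact Submodule.add_mem _ hx hy

end trace

/-- If `g` and `h` agree on `L`, then `h⁻¹ * g` fixes `L` pointwise. -/
theorem inv_mul_fixes {L : IntermediateField ℚ Qb} {g h : GQ} (hgh : ∀ x ∈ L, g x = h x) :
    ∀ x ∈ L, (h⁻¹ * g) x = x := by
  intro x hx
  rw [AlgEquiv.mul_apply, hgh x hx]
  exact AlgEquiv.symm_apply_apply h x

/-- **Trace congruence at finite level.** -/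
theorem exists_level_trace {A : Type} [CommRing A] [IsLocalRing A] (ρ : GaloisRepAdic A)
    (n : ℕ) : ∃ L : IntermediateField ℚ Qb, FiniteDimensional ℚ L ∧
      ∀ g h : GQ, (∀ x ∈ L, g x = h x) →
        LinearMap.trace A ρ.V (ρ.ρ g) - LinearMap.trace A ρ.V (ρ.ρ h)
          ∈ IsLocalRing.maximalIdeal A ^ n := by
  obtain ⟨L, hL, h1⟩ := ρ.isAdicContinuous n
  refine ⟨L, hL, fun g h hgh => ?_⟩
  have hσ := h1 (h⁻¹ * g) (inv_mul_fixes hgh)
  have hg : ρ.ρ g = ρ.ρ h * ρ.ρ (h⁻¹ * g) := by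
    rw [← map_mul, mul_inv_cancel_left]
  rw [← map_sub]
  refine trace_mem_of_forall_mem_smul _ _ fun v => ?_
  have e : (ρ.ρ g - ρ.ρ h) v = ρ.ρ h (ρ.ρ (h⁻¹ * g) v - v) := by
    rw [hg, LinearMap.sub_apply, Module.End.mul_apply, map_sub]
  rw [e]
  exact map_mem_smul_top _ _ (hσ v)

/-- **Matrix congruence at finite level** for Eichler–Shimura matrix data. -/
theorem exists_level_esData {N p : ℕ} [NeZero N] [Fact p.Prime] (D : ESData N p) (m : ℕ) :
    ∃ L : IntermediateField ℚ Qb, FiniteDimensional ℚ L ∧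
      ∀ g h : GQ, (∀ x ∈ L, g x = h x) →
        ∀ i j, (D.ρ g - D.ρ h) i j ∈ Ideal.span {(p : ℤ_[p]) ^ m} := by
  obtain ⟨L, hL, h1⟩ := D.cont m
  refine ⟨L, hL, fun g h hgh i j => ?_⟩
  have hσ := h1 (h⁻¹ * g) (inv_mul_fixes hgh)
  have hg : D.ρ g = D.ρ h * D.ρ (h⁻¹ * g) := by
    rw [← map_mul, mul_inv_cancel_left]
  have e : D.ρ g - D.ρ h = D.ρ h * (D.ρ (h⁻¹ * g) - 1) := by
    rw [hg, mul_sub, mul_one]
  rw [e, Matrix.mul_apply]
  exact Ideal.sum_mem _ fun k _ => Ideal.mul_mem_left _ _ (hσ k j)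

/-- The three finite levels needed for S31 in one field: traces of `ρ` modulo `𝔪 ^ n`, the
matrices of `D` modulo `p ^ m`, and any further finite extension `L₀`. -/
theorem exists_level_three {A : Type} [CommRing A] [IsLocalRing A] (ρ : GaloisRepAdic A)
    {N p : ℕ} [NeZero N] [Fact p.Prime] (D : ESData N p) (n m : ℕ)
    (L₀ : IntermediateField ℚ Qb) [FiniteDimensional ℚ L₀] :
    ∃ L : IntermediateField ℚ Qb, FiniteDimensional ℚ L ∧ L₀ ≤ L ∧
      (∀ g h : GQ, (∀ x ∈ L, g x = h x) →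
        LinearMap.trace A ρ.V (ρ.ρ g) - LinearMap.trace A ρ.V (ρ.ρ h)
          ∈ IsLocalRing.maximalIdeal A ^ n) ∧
      (∀ g h : GQ, (∀ x ∈ L, g x = h x) →
        ∀ i j, (D.ρ g - D.ρ h) i j ∈ Ideal.span {(p : ℤ_[p]) ^ m}) := by
  obtain ⟨L₁, hL₁, h1⟩ := exists_level_trace ρ n
  obtain ⟨L₂, hL₂, h2⟩ := exists_level_esData D m
  refine ⟨L₀ ⊔ L₁ ⊔ L₂, inferInstance, le_sup_left.trans le_sup_left, ?_, ?_⟩
  · intro g h hgh
    exact h1 g h fun x hx => hgh x ((le_sup_right.trans le_sup_left : L₁ ≤ L₀ ⊔ L₁ ⊔ L₂) hx)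
  · intro g h hgh
    exact h2 g h fun x hx => hgh x ((le_sup_right : L₂ ≤ L₀ ⊔ L₁ ⊔ L₂) hx)

end Fermat.Agent.S31.Level
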