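import Mathlib

/-!
# Burnside's theorem in dimension two

An irreducible two-dimensional representation of a monoid over an algebraically closed field
spans the whole endomorphism algebra.
-/

set_option autoImplicit false

namespace Fermat.Agent.S31.Burnside

open Module

variable {K : Type*} [Field K] [IsAlgClosed K] {U : Type*} [AddCommGroup U] [Module K U]
  {G : Type*} [Monoid G]

theorem span_range_eq_top (hU : Module.finrank K U = 2) (ρ : G →* Module.End K U)
    (hirr : ∀ W : Submodule K U, (∀ g, ∀ x ∈ W, ρ g x ∈ W) → W = ⊥ ∨ W = ⊤) :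
    Submodule.span K (Set.range ρ) = ⊤ := by
  have : FiniteDimensional K U := Module.finite_of_finrank_eq_succ hU
  have : Nontrivial U := Module.nontrivial_of_finrank_pos (R := K) (by omega)
  set B : Submodule K (Module.End K U) := Submodule.span K (Set.range ρ) with hB
  have hone : (1 : Module.End K U) ∈ B := Submodule.subset_span ⟨1, map_one ρ⟩
  have hgen : ∀ g, ρ g ∈ B := fun g => Submodule.subset_span ⟨g, rfl⟩
  have hmul : ∀ g, ∀ b ∈ B, ρ g * b ∈ B := by
    intro g b hb
    induction hb using Submodule.span_induction with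
    | mem x hx =>
      obtain ⟨h, rfl⟩ := hx
      rw [← map_mul]
      exact hgen _
    | zero => rw [mul_zero]; exact B.zero_mem
    | add x y _ _ hx hy => rw [mul_add]; exact B.add_mem hx hy
    | smul c x _ hx => rw [mul_smul_comm]; exact B.smul_mem c hx
  by_contra hne
  have hfin : Module.finrank K B < 4 := by
    have h4 : Module.finrank K (Module.End K U) = 4 := by
      show Module.finrank K (U →ₗ[K] U) = 4
      rw [Module.finrank_linearMap, hU]
    calc Module.finrank K B < Module.finrank K (Module.End K U) := Submodule.finrank_lt hne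
      _ = 4 := h4
  -- evaluation at a nonzero vector is onto
  have hev : ∀ v : U, v ≠ 0 → ∀ u : U, ∃ b ∈ B, b v = u := by
    intro v hv
    let W : Submodule K U := B.map (LinearMap.applyₗ v)
    have hW : W = ⊥ ∨ W = ⊤ := hirr W (by
      rintro g x ⟨b, hb, rfl⟩
      exact ⟨ρ g * b, hmul g b hb, rfl⟩)
    rcases hW with h | h
    · exfalso
      have hvW : v ∈ W := ⟨1, hone, rfl⟩
      rw [h] at hvW
      exact hv ((Submodule.mem_bot K).mp hvW)
    · intro u
      have huW : u ∈ W := h ▸ Submodule.mem_top
      obtain ⟨b, hb, rfl⟩ := huW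
      exact ⟨b, hb, rfl⟩
  -- the kernel of the evaluation map has dimension at most one
  have h4 : Module.finrank K (Module.End K U) = 4 := by
    show Module.finrank K (U →ₗ[K] U) = 4
    rw [Module.finrank_linearMap, hU]
  have hker : ∀ v : U, v ≠ 0 → ∀ b ∈ B, b ≠ 0 → b v = 0 → ∀ c ∈ B, c v = 0 →
      ∃ l : K, c = l • b := by
    intro v hv b hb hb0 hbv c hc hcv
    let E : Module.End K U →ₗ[K] U := LinearMap.applyₗ v
    have hEsurj : Function.Surjective E := by
      intro u
      obtain ⟨b', -, rfl⟩ := hev v hv u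
      exact ⟨b', rfl⟩
    have hrk := LinearMap.finrank_range_add_finrank_ker E
    rw [LinearMap.range_eq_top.mpr hEsurj, finrank_top, hU, h4] at hrk
    have hsup : B ⊔ LinearMap.ker E = ⊤ := by
      rw [eq_top_iff]
      intro f _
      obtain ⟨b', hb', hb'f⟩ := hev v hv (f v)
      have hfk : f - b' ∈ LinearMap.ker E := by
        rw [LinearMap.mem_ker]
        show (f - b') v = 0
        rw [LinearMap.sub_apply, hb'f, sub_self]
      have : f = b' + (f - b') := by abel
      rw [this]
      exact Submodule.add_mem_sup hb' hfk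
    have hdim := Submodule.finrank_sup_add_finrank_inf_eq B (LinearMap.ker E)
    rw [hsup, finrank_top, h4] at hdim
    have hk1 : Module.finrank K (B ⊓ LinearMap.ker E : Submodule K (Module.End K U)) ≤ 1 := by
      omega
    obtain ⟨w, hw⟩ := (finrank_le_one_iff (K := K)
      (V := (B ⊓ LinearMap.ker E : Submodule K (Module.End K U)))).mp hk1
    have hbk : b ∈ B ⊓ LinearMap.ker E := ⟨hb, hbv⟩
    have hck : c ∈ B ⊓ LinearMap.ker E := ⟨hc, hcv⟩
    obtain ⟨c1, hc1⟩ := hw ⟨_, hbk⟩
    obtain ⟨c2, hc2⟩ := hw ⟨_, hck⟩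
    have hc1' : c1 • (w : Module.End K U) = b := congrArg Subtype.val hc1
    have hc2' : c2 • (w : Module.End K U) = c := congrArg Subtype.val hc2
    have hc1ne : c1 ≠ 0 := by
      rintro rfl
      rw [zero_smul] at hc1'
      exact hb0 hc1'.symm
    refine ⟨c2 * c1⁻¹, ?_⟩
    rw [← hc1', ← hc2', smul_smul, mul_assoc, inv_mul_cancel₀ hc1ne, mul_one]
  by_cases hA : ∃ v : U, v ≠ 0 ∧ ∃ b ∈ B, b ≠ 0 ∧ b v = 0
  · obtain ⟨v, hv, b, hb, hb0, hbv⟩ := hA
    have hW : LinearMap.range b = ⊥ ∨ LinearMap.range b = ⊤ := hirr _ (by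
      rintro g x ⟨y, rfl⟩
      obtain ⟨l, hl⟩ := hker v hv b hb hb0 hbv (ρ g * b) (hmul g b hb) (by
        rw [Module.End.mul_apply, hbv, map_zero])
      refine ⟨l • y, ?_⟩
      rw [map_smul]
      have := congrArg (fun f : Module.End K U => f y) hl
      simpa using this.symm)
    rcases hW with h | h
    · exact hb0 (LinearMap.range_eq_bot.mp h)
    · have hsurj : Function.Surjective b := LinearMap.range_eq_top.mp h
      have hinj : Function.Injective b := LinearMap.injective_iff_surjective.mpr hsurj
      exact hv (hinj (by rw [hbv, map_zero]))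
  · push Not at hA
    have hscal : ∀ g, ∃ μ : K, ρ g = μ • (1 : Module.End K U) := by
      intro g
      obtain ⟨μ, hμ⟩ := Module.End.exists_eigenvalue (ρ g)
      obtain ⟨v, hv⟩ := hμ.exists_hasEigenvector
      refine ⟨μ, ?_⟩
      have hb : ρ g - μ • (1 : Module.End K U) ∈ B := B.sub_mem (hgen g) (B.smul_mem μ hone)
      have hbv : (ρ g - μ • (1 : Module.End K U)) v = 0 := by
        rw [LinearMap.sub_apply, LinearMap.smul_apply, Module.End.one_apply, hv.apply_eq_smul,
          sub_self]
      by_contra hne'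
      exact hA v hv.2 _ hb (sub_ne_zero.mpr hne') hbv
    obtain ⟨v0, hv0⟩ := exists_ne (0 : U)
    have hW : (K ∙ v0) = ⊥ ∨ (K ∙ v0) = ⊤ := hirr _ (by
      intro g x hx
      obtain ⟨μ, hμ⟩ := hscal g
      rw [hμ, LinearMap.smul_apply, Module.End.one_apply]
      exact Submodule.smul_mem _ μ hx)
    rcases hW with h | h
    · exact hv0 (Submodule.span_singleton_eq_bot.mp h)
    · have h1 : Module.finrank K (K ∙ v0) = 1 := finrank_span_singleton hv0
      rw [h, finrank_top, hU] at h1
      omega

end Fermat.Agent.S31.Burnside
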