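import Mathlib
import Fermat.Prelude.Def_GaloisRep_Adic
import Fermat.Agent.S31.Burnside

/-!
# Traces detect triviality for residually absolutely irreducible representations

If `ρ` is a rank-two Galois representation over a local ring `T` whose residual representation
is absolutely irreducible, and `tr ρ(τ g) = tr ρ(g)` for all `g`, then `ρ(τ) = 1`.
(Burnside + Nakayama + nondegeneracy of the trace form on matrices.)
-/

set_option autoImplicit false

namespace Fermat.Agent.S31.TraceDet

open Matrix

section Generic

variable {G : Type*} {n : Type*} [Fintype n] [DecidableEq n]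

/-- If the matrices `R g` span the full matrix module, a matrix trace-orthogonal to all of them
vanishes. -/
theorem eq_zero_of_span_eq_top {T : Type*} [CommRing T] (R : G → Matrix n n T)
    (hspan : Submodule.span T (Set.range R) = ⊤)
    (C : Matrix n n T) (hC : ∀ g, (C * R g).trace = 0) : C = 0 := by
  have h : ∀ Y : Matrix n n T, (C * Y).trace = 0 := by
    intro Y
    have hY : Y ∈ Submodule.span T (Set.range R) := hspan ▸ Submodule.mem_top
    induction hY using Submodule.span_induction with
    | mem x hx =>
      obtain ⟨g, rfl⟩ := hx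
      exact hC g
    | zero => rw [mul_zero, trace_zero]
    | add x y _ _ hx hy => rw [mul_add, trace_add, hx, hy, add_zero]
    | smul c x _ hx => rw [mul_smul_comm, trace_smul, hx, smul_zero]
  rw [Matrix.ext_iff_trace_mul_right]
  intro x
  rw [h x, zero_mul, trace_zero]

omit [DecidableEq n] in
/-- Descent of trace-nondegeneracy along a field embedding. -/
theorem eq_zero_of_map {K L : Type*} [Field K] [Field L] (ι : K →+* L) (R : G → Matrix n n K)
    (h : ∀ C : Matrix n n L, (∀ g, (C * (R g).map ι).trace = 0) → C = 0)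
    (C : Matrix n n K) (hC : ∀ g, (C * R g).trace = 0) : C = 0 := by
  have h0 : C.map ι = 0 := h (C.map ι) (fun g => by
    rw [← Matrix.map_mul]
    have : ((C * R g).map ι).trace = ι ((C * R g).trace) := by
      simp only [Matrix.trace, Matrix.diag_apply, Matrix.map_apply, map_sum]
    rw [this, hC g, map_zero])
  ext i j
  have hij := congrFun (congrFun h0 i) j
  rw [Matrix.map_apply, Matrix.zero_apply] at hij
  rw [Matrix.zero_apply]
  exact ι.injective (by rw [hij, map_zero])

/-- Over a field, trace-nondegeneracy against a family forces the family to span. -/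
theorem span_eq_top_of_trace {K : Type*} [Field K] (R : G → Matrix n n K)
    (h : ∀ C : Matrix n n K, (∀ g, (C * R g).trace = 0) → C = 0) :
    Submodule.span K (Set.range R) = ⊤ := by
  by_contra hne
  obtain ⟨f, hf0, hf⟩ := Submodule.exists_le_ker_of_lt_top _ (lt_top_iff_ne_top.mpr hne)
  let C : Matrix n n K := Matrix.of fun i j => f (Matrix.single j i 1)
  have hrep : ∀ Y : Matrix n n K, f Y = (C * Y).trace := by
    intro Y
    conv_lhs => rw [matrix_eq_sum_single Y]
    simp only [map_sum, Matrix.trace, Matrix.diag_apply, Matrix.mul_apply]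
    rw [Finset.sum_comm]
    refine Finset.sum_congr rfl fun i _ => Finset.sum_congr rfl fun j _ => ?_
    have hs : Matrix.single j i (Y j i) = (Y j i) • Matrix.single j i (1 : K) := by
      rw [Matrix.smul_single, smul_eq_mul, mul_one]
    rw [hs, map_smul, smul_eq_mul, mul_comm]
    rfl
  have hC : C = 0 := h C (fun g => by
    rw [← hrep]
    exact hf (Submodule.subset_span ⟨g, rfl⟩))
  apply hf0
  ext Y
  rw [hrep, hC, zero_mul, trace_zero]
  rfl

/-- Nakayama: a family of matrices over a local ring spans if it spans modulo the maximal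
ideal. -/
theorem span_eq_top_of_residue {T : Type*} [CommRing T] [IsLocalRing T]
    (R : G → Matrix n n T)
    (h : Submodule.span (IsLocalRing.ResidueField T)
        (Set.range fun g => (R g).map (IsLocalRing.residue T)) = ⊤) :
    Submodule.span T (Set.range R) = ⊤ := by
  set S := Submodule.span T (Set.range R) with hS
  have hlift : ∀ Z : Matrix n n (IsLocalRing.ResidueField T),
      ∃ Y ∈ S, Y.map (IsLocalRing.residue T) = Z := by
    intro Z
    have hZ : Z ∈ Submodule.span (IsLocalRing.ResidueField T)
        (Set.range fun g => (R g).map (IsLocalRing.residue T)) := h ▸ Submodule.mem_top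
    induction hZ using Submodule.span_induction with
    | mem x hx =>
      obtain ⟨g, rfl⟩ := hx
      exact ⟨R g, Submodule.subset_span ⟨g, rfl⟩, rfl⟩
    | zero => exact ⟨0, S.zero_mem, by ext; simp⟩
    | add x y _ _ hx hy =>
      obtain ⟨Y1, h1, rfl⟩ := hx
      obtain ⟨Y2, h2, rfl⟩ := hy
      exact ⟨Y1 + Y2, S.add_mem h1 h2, by ext; simp⟩
    | smul c x _ hx =>
      obtain ⟨Y1, h1, rfl⟩ := hx
      obtain ⟨c, rfl⟩ := IsLocalRing.residue_surjective c
      exact ⟨c • Y1, S.smul_mem c h1, by ext; simp⟩
  have hle : (⊤ : Submodule T (Matrix n n T)) ≤ S ⊔ (IsLocalRing.maximalIdeal T) • ⊤ := by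
    intro Y _
    obtain ⟨Y', hY', hYY'⟩ := hlift (Y.map (IsLocalRing.residue T))
    have hdec : Y = Y' + (Y - Y') := by abel
    rw [hdec]
    refine Submodule.add_mem_sup hY' ?_
    have hent : ∀ i j, (Y - Y') i j ∈ IsLocalRing.maximalIdeal T := by
      intro i j
      rw [← IsLocalRing.residue_eq_zero_iff]
      have hij := congrFun (congrFun hYY' i) j
      rw [Matrix.map_apply, Matrix.map_apply] at hij
      rw [Matrix.sub_apply, map_sub, hij, sub_self]
    rw [matrix_eq_sum_single (Y - Y')]
    refine Submodule.sum_mem _ fun i _ => Submodule.sum_mem _ fun j _ => ?_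
    have hs : Matrix.single i j ((Y - Y') i j) = ((Y - Y') i j) • Matrix.single i j (1 : T) := by
      rw [Matrix.smul_single, smul_eq_mul, mul_one]
    rw [hs]
    exact Submodule.smul_mem_smul (hent i j) Submodule.mem_top
  have hfg : (⊤ : Submodule T (Matrix n n T)).FG := Module.Finite.fg_top
  exact eq_top_iff.mpr (Submodule.le_of_le_smul_of_le_jacobson_bot hfg
    (IsLocalRing.maximalIdeal_le_jacobson _) hle)

end Generic

section Main

variable {T : Type} [CommRing T] [IsLocalRing T]

local notation "κ" => IsLocalRing.ResidueField T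
local notation "κb" => AlgebraicClosure (IsLocalRing.ResidueField T)

/-- **Traces detect triviality.** -/
theorem eq_one_of_trace
    (ρ : GaloisRepAdic T) (habs : ρ.residual.IsAbsolutelyIrreducible)
    (τ : AlgebraicClosure ℚ ≃ₐ[ℚ] AlgebraicClosure ℚ)
    (h : ∀ g, LinearMap.trace T ρ.V (ρ.ρ (τ * g)) = LinearMap.trace T ρ.V (ρ.ρ g)) :
    ρ.ρ τ = 1 := by
  classical
  let e : Module.Basis (Fin 2) T ρ.V := Module.finBasisOfFinrankEq T ρ.V ρ.finrank_eq
  let R : (AlgebraicClosure ℚ ≃ₐ[ℚ] AlgebraicClosure ℚ) → Matrix (Fin 2) (Fin 2) T :=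
    fun g => LinearMap.toMatrix e e (ρ.ρ g)
  have hRmul : ∀ g g', R (g * g') = R g * R g' := fun g g' => by
    show LinearMap.toMatrix e e (ρ.ρ (g * g')) = _
    rw [map_mul, Module.End.mul_eq_comp, LinearMap.toMatrix_comp e e e]
  -- Burnside over the algebraic closure of the residue field
  have hB := Burnside.span_range_eq_top (K := κb) (ρ.residual.baseChange κb).finrank_eq
    (ρ.residual.baseChange κb).ρ habs
  let e1 : Module.Basis (Fin 2) κ (TensorProduct T κ ρ.V) := Algebra.TensorProduct.basis κ e
  let e2 : Module.Basis (Fin 2) κb (TensorProduct κ κb (TensorProduct T κ ρ.V)) :=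
    Algebra.TensorProduct.basis κb e1
  have hmat : ∀ g, LinearMap.toMatrix e2 e2 ((ρ.residual.baseChange κb).ρ g) =
      ((R g).map (algebraMap T κ)).map (algebraMap κ κb) := by
    intro g
    show LinearMap.toMatrix e2 e2 (((ρ.ρ g).baseChange κ).baseChange κb) = _
    rw [LinearMap.toMatrix_baseChange, LinearMap.toMatrix_baseChange]
  have hspan_b : Submodule.span κb
      (Set.range fun g => ((R g).map (algebraMap T κ)).map (algebraMap κ κb)) = ⊤ := by
    rw [eq_top_iff]
    intro M _
    have hM := hB.ge (Submodule.mem_top (x := (LinearMap.toMatrix e2 e2).symm M))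
    have hM' := Submodule.apply_mem_span_image_of_mem_span
      (LinearMap.toMatrix e2 e2).toLinearMap hM
    rw [LinearEquiv.coe_coe, LinearEquiv.apply_symm_apply] at hM'
    refine Submodule.span_mono ?_ hM'
    rintro _ ⟨_, ⟨g, rfl⟩, rfl⟩
    exact ⟨g, (hmat g).symm⟩
  -- descend to the residue field
  have hκb : ∀ C : Matrix (Fin 2) (Fin 2) κb,
      (∀ g, (C * ((R g).map (algebraMap T κ)).map (algebraMap κ κb)).trace = 0) → C = 0 :=
    eq_zero_of_span_eq_top _ hspan_b
  have hκ : ∀ C : Matrix (Fin 2) (Fin 2) κ,
      (∀ g, (C * (R g).map (algebraMap T κ)).trace = 0) → C = 0 :=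
    eq_zero_of_map (algebraMap κ κb) (fun g => (R g).map (algebraMap T κ)) hκb
  have hspanκ : Submodule.span κ (Set.range fun g => (R g).map (IsLocalRing.residue T)) = ⊤ :=
    span_eq_top_of_trace (fun g => (R g).map (algebraMap T κ)) hκ
  have hspanT : Submodule.span T (Set.range R) = ⊤ := span_eq_top_of_residue R hspanκ
  -- conclude
  have hX : R τ - 1 = 0 := eq_zero_of_span_eq_top R hspanT _ (fun g => by
    rw [sub_mul, one_mul, trace_sub, ← hRmul, sub_eq_zero]
    show (LinearMap.toMatrix e e (ρ.ρ (τ * g))).trace = (LinearMap.toMatrix e e (ρ.ρ g)).trace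
    rw [← LinearMap.trace_eq_matrix_trace T e, ← LinearMap.trace_eq_matrix_trace T e]
    exact h g)
  have hRτ : LinearMap.toMatrix e e (ρ.ρ τ) = LinearMap.toMatrix e e 1 := by
    rw [LinearMap.toMatrix_one]
    exact sub_eq_zero.mp hX
  exact (LinearMap.toMatrix e e).injective hRτ

/-- **Trace rigidity** (the same statement with the twist on the right): if
`tr ρ(g τ) = tr ρ(g)` for all `g` and the residual representation is absolutely irreducible,
then `ρ(τ) = 1`. -/
theorem traceRigid {A : Type} [CommRing A] [IsLocalRing A]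
    (ρ : GaloisRepAdic A) (habs : ρ.residual.IsAbsolutelyIrreducible)
    (τ : AlgebraicClosure ℚ ≃ₐ[ℚ] AlgebraicClosure ℚ)
    (h : ∀ g, LinearMap.trace A ρ.V (ρ.ρ (g * τ)) = LinearMap.trace A ρ.V (ρ.ρ g)) :
    ρ.ρ τ = 1 := by
  refine eq_one_of_trace ρ habs τ (fun g => ?_)
  rw [← h g, MonoidHom.map_mul, MonoidHom.map_mul]
  exact LinearMap.trace_mul_comm A _ _

end Main

end Fermat.Agent.S31.TraceDet
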