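/-
S31 assembly (helper71, captain).

`unramified_of_esData` : the statement of S31 from an `ESData N p` (the producer shared with S30)
and the Frobenius-power density statement `FrobPowDensity` (the shape of
`Lib.FrobeniusDensity.exists_frobenius_pow_eq`).  No Chebotarev, no reducedness of the Hecke
algebra, no characteristic-zero hypothesis.

Proof: for `τ` in an inertia group at `q ∉ S` and any `g`, `n`: write `g` and `g * τ` on a large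
finite level as Frobenius powers `s ^ b`, `s' ^ b'` at primes `ℓ, ℓ' ∉ S`.  On the `p`-adic lattice
both powers induce the same matrix modulo `p ^ (n + e)` (`D.unr`) and `ℓ ^ b ≡ ℓ' ^ b'`
(`Cyclo`), so the integer matrix `E_b(t_ℓ) - E_b'(t_ℓ')` is divisible by `p ^ (n + e)` (`Congr`);
by saturation and `D.occ` (`HeckePairs`) the Hecke operator `E_b(T_ℓ) - E_b'(T_ℓ')` is divisible
by `p ^ n`.  Its image in `T` is `tr ρ(s ^ b) - tr ρ(s' ^ b')` (`Dickson`), which is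
`tr ρ(g) - tr ρ(g * τ)` modulo `𝔪 ^ n` (`Level`).  Krull's intersection theorem and trace
rigidity (`TraceDet`) conclude.
-/
import Mathlib
import Fermat.Prelude.Def_CuspForm_HeckeGaloisRepDatum
import Fermat.Agent.S30.Defs
import Fermat.Agent.S31.Cyclo
import Fermat.Agent.S31.Level
import Fermat.Agent.S31.Dickson
import Fermat.Agent.S31.HeckePairs
import Fermat.Agent.S31.TraceDet
import Fermat.Agent.S31.Congr

set_option autoImplicit false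

namespace Fermat.Agent.S31.Main

open Fermat.Agent.S30 Fermat.Agent.S31.Dickson CuspForm

local notation "Qb" => AlgebraicClosure ℚ

/-- Frobenius-power density, in the shape of `Lib.FrobeniusDensity.exists_frobenius_pow_eq`:
every element of the absolute Galois group agrees, on any given finite extension, with a power of
a Frobenius element at a prime outside any given finite set. -/
def FrobPowDensity : Prop :=
  ∀ (L : IntermediateField ℚ Qb) [FiniteDimensional ℚ L] (S : Finset ℕ) (g : GQ),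
    ∃ (ℓ : ℕ) (A : ValuationSubring Qb) (s : GQ) (b : ℕ),
      ℓ.Prime ∧ ℓ ∉ S ∧ A.LiesOverPrime ℓ ∧ A.IsFrobeniusAt s ℓ ∧ 0 < b ∧
        ∀ x ∈ L, (s ^ b) x = g x

variable {p : ℕ} {N : ℕ} [NeZero N] {S : Finset ℕ}
  {𝒪 : Type} [CommRing 𝒪] [IsDomain 𝒪] [IsDiscreteValuationRing 𝒪]
  [IsAdicComplete (IsLocalRing.maximalIdeal 𝒪) 𝒪]
  {θ : CuspForm.heckeAlgebra N 2 (↑S : Set ℕ) →+* IsLocalRing.ResidueField 𝒪}
  {T : Type} [CommRing T] [IsLocalRing T] [IsNoetherianRing T]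
  [IsAdicComplete (IsLocalRing.maximalIdeal T) T] [Algebra 𝒪 T] [IsLocalHom (algebraMap 𝒪 T)]
  [Module.Finite 𝒪 T] [Module.Free 𝒪 T]

/-- The trace of `H.ρ` is invariant under inertia at `q ∉ S`, modulo every power of the maximal
ideal. -/
theorem trace_sub_mem (hdens : FrobPowDensity) [Fact p.Prime] (D : ESData N p)
    (hp𝒪 : (p : 𝒪) ∈ IsLocalRing.maximalIdeal 𝒪) (hpS : p ∈ S)
    (hNS : ∀ q : ℕ, q.Prime → q ∣ N → q ∈ S)
    (H : CuspForm.HeckeGaloisRepDatum N (↑S : Set ℕ) 𝒪 θ T)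
    (q : ℕ) (hq : q.Prime) (hqS : q ∉ S)
    (P : ValuationSubring Qb) (hP : P.LiesOverPrime q) (τ : GQ)
    (hτ : τ ∈ P.inertiaSubgroupIn ℚ) (g : GQ) (n : ℕ) :
    LinearMap.trace T H.ρ.V (H.ρ.ρ (g * τ)) - LinearMap.trace T H.ρ.V (H.ρ.ρ g)
      ∈ IsLocalRing.maximalIdeal T ^ n := by
  have hp : p.Prime := Fact.out
  have hqp : q ≠ p := fun h => hqS (h ▸ hpS)
  have hqN : ¬ q ∣ N := fun h => hqS (hNS q hq h)
  have hpS' : p ∈ (↑S : Set ℕ) := Finset.mem_coe.mpr hpS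
  obtain ⟨e, he⟩ := HeckePairs.exists_sat_bound D (↑S : Set ℕ) hpS'
  obtain ⟨L₀, hL₀, hcyc⟩ := Cyclo.exists_field_pow_modEq p hp (n + e)
  haveI := hL₀
  obtain ⟨L, hL, hL₀L, htr, hmat⟩ := Level.exists_level_three H.ρ D n (n + e) L₀
  haveI := hL
  obtain ⟨ℓ, A, s, b, hℓ, hℓS, hA, hs, -, hsb⟩ := hdens L S g
  obtain ⟨ℓ', A', s', b', hℓ', hℓ'S, hA', hs', -, hsb'⟩ := hdens L S (g * τ)
  have hℓp : ℓ ≠ p := fun h => hℓS (h ▸ hpS)
  have hℓN : ¬ ℓ ∣ N := fun h => hℓS (hNS ℓ hℓ h)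
  have hℓ'p : ℓ' ≠ p := fun h => hℓ'S (h ▸ hpS)
  have hℓ'N : ¬ ℓ' ∣ N := fun h => hℓ'S (hNS ℓ' hℓ' h)
  have hℓSc : ℓ ∉ (↑S : Set ℕ) := fun h => hℓS (Finset.mem_coe.mp h)
  have hℓ'Sc : ℓ' ∉ (↑S : Set ℕ) := fun h => hℓ'S (Finset.mem_coe.mp h)
  -- the cyclotomic congruence
  have hcong := hcyc ℓ ℓ' q b b' A A' P s s' g τ hℓ hℓp hs hA hℓ' hℓ'p hs' hA' hq hqp hP hτ
    (fun x hx => hsb x (hL₀L hx)) (fun x hx => hsb' x (hL₀L hx))
  have hdvd : (p : ℤ) ^ (n + e) ∣ (ℓ : ℤ) ^ b - (ℓ' : ℤ) ^ b' :=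
    Int.modEq_iff_dvd.mp hcong.symm
  -- the lattice side
  have hρ : D.ρ g = D.ρ (g * τ) := by
    rw [map_mul, D.unr q hq hqN hqp P hP τ hτ, mul_one]
  have hdiv := Congr.dvd_lucasSeq_sub D (n + e) g (g * τ) hρ ℓ hℓ hℓN hℓp A hA s hs b
    (hmat (s ^ b) g hsb) ℓ' hℓ' hℓ'N hℓ'p A' hA' s' hs' b' (hmat (s' ^ b') (g * τ) hsb') hdvd
  -- transfer to the Hecke algebra
  have hx1 := HeckePairs.lucasSeq_mem_heckePairs D (↑S : Set ℕ) hℓ hℓN hℓSc b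
  have hx2 := HeckePairs.lucasSeq_mem_heckePairs D (↑S : Set ℕ) hℓ' hℓ'N hℓ'Sc b'
  obtain ⟨y, hy⟩ := he n _ (Subring.sub_mem _ hx1 hx2) (fun i j => by
    rw [Prod.fst_sub]
    exact hdiv i j)
  rw [Prod.snd_sub] at hy
  -- the datum side
  have ht1 : LinearMap.trace T H.ρ.V (H.ρ.ρ (s ^ b))
      = H.π (lucasSeq (heckeAlgebra.T hℓ hℓN hℓSc : heckeAlgebra N 2 (↑S : Set ℕ)) ℓ b) := by
    rw [map_pow, trace_pow_eq_lucasSeq H.ρ.finrank_eq (H.ρ.ρ s) _ ℓ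
      (H.charpoly_frob ℓ hℓ hℓN hℓSc A hA s hs) b, map_lucasSeq]
  have ht2 : LinearMap.trace T H.ρ.V (H.ρ.ρ (s' ^ b'))
      = H.π (lucasSeq (heckeAlgebra.T hℓ' hℓ'N hℓ'Sc : heckeAlgebra N 2 (↑S : Set ℕ)) ℓ' b') := by
    rw [map_pow, trace_pow_eq_lucasSeq H.ρ.finrank_eq (H.ρ.ρ s') _ ℓ'
      (H.charpoly_frob ℓ' hℓ' hℓ'N hℓ'Sc A' hA' s' hs') b', map_lucasSeq]
  have hpT : (p : T) ∈ IsLocalRing.maximalIdeal T := by
    have h1 : (p : T) = algebraMap 𝒪 T (p : 𝒪) := (map_natCast (algebraMap 𝒪 T) p).symm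
    rw [h1]
    exact map_nonunit (algebraMap 𝒪 T) (p : 𝒪) hp𝒪
  have hmid : LinearMap.trace T H.ρ.V (H.ρ.ρ (s ^ b)) - LinearMap.trace T H.ρ.V (H.ρ.ρ (s' ^ b'))
      ∈ IsLocalRing.maximalIdeal T ^ n := by
    rw [ht1, ht2, ← map_sub, hy, map_mul, map_pow, map_natCast]
    exact Ideal.mul_mem_right _ _ (Ideal.pow_mem_pow hpT n)
  have h1 := htr (s ^ b) g hsb
  have h2 := htr (s' ^ b') (g * τ) hsb'
  have key : LinearMap.trace T H.ρ.V (H.ρ.ρ (g * τ)) - LinearMap.trace T H.ρ.V (H.ρ.ρ g)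
      = (LinearMap.trace T H.ρ.V (H.ρ.ρ (s ^ b)) - LinearMap.trace T H.ρ.V (H.ρ.ρ g))
        - (LinearMap.trace T H.ρ.V (H.ρ.ρ (s' ^ b')) - LinearMap.trace T H.ρ.V (H.ρ.ρ (g * τ)))
        - (LinearMap.trace T H.ρ.V (H.ρ.ρ (s ^ b))
          - LinearMap.trace T H.ρ.V (H.ρ.ρ (s' ^ b'))) := by
    ring
  rw [key]
  exact Ideal.sub_mem _ (Ideal.sub_mem _ h1 h2) hmid

/-- **S31 from Eichler–Shimura matrix data and Frobenius-power density.** -/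
theorem unramified_of_esData (hdens : FrobPowDensity) [Fact p.Prime] (D : ESData N p)
    (hp𝒪 : (p : 𝒪) ∈ IsLocalRing.maximalIdeal 𝒪) (hpS : p ∈ S)
    (hNS : ∀ q : ℕ, q.Prime → q ∣ N → q ∈ S)
    (H : CuspForm.HeckeGaloisRepDatum N (↑S : Set ℕ) 𝒪 θ T)
    (q : ℕ) (hq : q.Prime) (hqS : q ∉ S) :
    H.ρ.IsUnramifiedAt q := by
  intro P hP τ hτ
  refine TraceDet.traceRigid H.ρ H.residual_absIrr τ fun g => ?_
  have hmem : LinearMap.trace T H.ρ.V (H.ρ.ρ (g * τ)) - LinearMap.trace T H.ρ.V (H.ρ.ρ g)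
      ∈ ⨅ n : ℕ, IsLocalRing.maximalIdeal T ^ n :=
    (Ideal.mem_iInf).mpr fun n =>
      trace_sub_mem hdens D hp𝒪 hpS hNS H q hq hqS P hP τ hτ g n
  rw [Ideal.iInf_pow_eq_bot_of_isLocalRing (IsLocalRing.maximalIdeal T)
    (IsLocalRing.maximalIdeal.isMaximal T).ne_top] at hmem
  exact sub_eq_zero.mp hmem

end Fermat.Agent.S31.Main
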