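/-
S31, last step before the statement file (helper71, captain).

`frobPowDensity` discharges the density hypothesis of `Main.unramified_of_esData` with the
landed Frobenius density theorem; `unramified_of_nonempty_esData` is then the statement of S31
from `Nonempty (ESData N p)` alone.
-/
import Fermat.Agent.S31.Main
import Fermat.Agent.Lib.FrobDensity.Lift

set_option autoImplicit false

namespace Fermat.Agent.S31.Final

open Fermat.Agent.S30 CuspForm

/-- The Frobenius-power density statement used by `Main`, from the landed density theorem. -/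
theorem frobPowDensity : Fermat.Agent.S31.Main.FrobPowDensity :=
  fun L _ S g => Fermat.Agent.Lib.FrobDensity.exists_frobenius_pow_eq L S g

variable {p : ℕ} {N : ℕ} [NeZero N] {S : Finset ℕ}
  {𝒪 : Type} [CommRing 𝒪] [IsDomain 𝒪] [IsDiscreteValuationRing 𝒪]
  [IsAdicComplete (IsLocalRing.maximalIdeal 𝒪) 𝒪]
  {θ : CuspForm.heckeAlgebra N 2 (↑S : Set ℕ) →+* IsLocalRing.ResidueField 𝒪}
  {T : Type} [CommRing T] [IsLocalRing T] [IsNoetherianRing T]
  [IsAdicComplete (IsLocalRing.maximalIdeal T) T] [Algebra 𝒪 T] [IsLocalHom (algebraMap 𝒪 T)]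
  [Module.Finite 𝒪 T] [Module.Free 𝒪 T]

/-- The statement of S31, given the Kummer-class datum `ESData N p` of the S30 build. -/
theorem unramified_of_nonempty_esData (hp : p.Prime)
    (hD : ∀ [Fact p.Prime], Nonempty (ESData N p))
    (hp𝒪 : (p : 𝒪) ∈ IsLocalRing.maximalIdeal 𝒪) (hpS : p ∈ S)
    (hNS : ∀ q : ℕ, q.Prime → q ∣ N → q ∈ S)
    (H : CuspForm.HeckeGaloisRepDatum N (↑S : Set ℕ) 𝒪 θ T)
    (q : ℕ) (hq : q.Prime) (hqS : q ∉ S) :
    H.ρ.IsUnramifiedAt q := by
  have : Fact p.Prime := ⟨hp⟩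
  obtain ⟨D⟩ := (hD : Nonempty (ESData N p))
  exact Fermat.Agent.S31.Main.unramified_of_esData frobPowDensity D hp𝒪 hpS hNS H q hq hqS

end Fermat.Agent.S31.Final
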