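/-
S31 glue, part 1 (helper211): Lucas sequences.

`lucasV a c b` is the sequence `V_0 = 2`, `V_1 = a`, `V_{b+2} = a V_{b+1} - c V_b`, i.e.
`V_b = x^b + y^b` when `x + y = a`, `x y = c`.

* `lucas_pow`: if `x² - a x + c = 0` (with `x` commuting with `a`, `c`) then
  `(x^b)² - V_b(a,c) x^b + c^b = 0`.
* `trace_pow_eq_lucasV`: for an endomorphism `f` of a free module of rank 2 with characteristic
  polynomial `X² - a X + c`, `tr (f^b) = V_b(a,c)` (no division by 2).
-/
import Mathlib

set_option autoImplicit false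

namespace Fermat.Agent.S31.Lucas

open Polynomial

/-- The Lucas `V`-sequence of the pair `(a, c)`. -/
def lucasV {A : Type*} [CommRing A] (a c : A) : ℕ → A
  | 0 => 2
  | 1 => a
  | (n + 2) => a * lucasV a c (n + 1) - c * lucasV a c n

@[simp] theorem lucasV_zero {A : Type*} [CommRing A] (a c : A) : lucasV a c 0 = 2 := rfl

@[simp] theorem lucasV_one {A : Type*} [CommRing A] (a c : A) : lucasV a c 1 = a := rfl

theorem lucasV_add_two {A : Type*} [CommRing A] (a c : A) (n : ℕ) :
    lucasV a c (n + 2) = a * lucasV a c (n + 1) - c * lucasV a c n := rfl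

theorem map_lucasV {A B : Type*} [CommRing A] [CommRing B] (f : A →+* B) (a c : A) :
    ∀ n : ℕ, f (lucasV a c n) = lucasV (f a) (f c) n
  | 0 => by rw [lucasV_zero, lucasV_zero, map_ofNat]
  | 1 => by rw [lucasV_one, lucasV_one]
  | (n + 2) => by
    rw [lucasV_add_two, lucasV_add_two, map_sub, map_mul, map_mul, map_lucasV f a c (n + 1),
      map_lucasV f a c n]

/-- Two-step induction principle. -/
theorem two_step {P : ℕ → Prop} (h0 : P 0) (h1 : P 1) (h : ∀ n, P n → P (n + 1) → P (n + 2)) :
    ∀ n, P n := by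
  intro n
  have : P n ∧ P (n + 1) := by
    induction n with
    | zero => exact ⟨h0, h1⟩
    | succ k ih => exact ⟨ih.2, h k ih.1 ih.2⟩
  exact this.1

theorem pow_add_pow_succ_succ {E : Type*} [Ring E] {x y : E} (hxy : Commute x y) (n : ℕ) :
    x ^ (n + 2) + y ^ (n + 2) =
      (x + y) * (x ^ (n + 1) + y ^ (n + 1)) - (x * y) * (x ^ n + y ^ n) := by
  have h1 : y * x ^ (n + 1) = x * y * x ^ n := by
    rw [pow_succ', ← mul_assoc, hxy.eq]
  have h2 : x * y ^ (n + 1) = x * y * y ^ n := by
    rw [pow_succ', ← mul_assoc]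
  have h3 : x ^ (n + 2) = x * x ^ (n + 1) := pow_succ' x (n + 1)
  have h4 : y ^ (n + 2) = y * y ^ (n + 1) := pow_succ' y (n + 1)
  rw [add_mul, mul_add, mul_add, mul_add, h1, h2, h3, h4]
  abel

/-- **Lucas**: a root `x` of `X² - aX + c` has `x^b` a root of `X² - V_b X + c^b`. -/
theorem lucas_pow {A E : Type*} [CommRing A] [Ring E] (φ : A →+* E) (x : E) (a c : A)
    (hxa : Commute x (φ a)) (h : x * x - φ a * x + φ c = 0) (b : ℕ) :
    x ^ b * x ^ b - φ (lucasV a c b) * x ^ b + φ c ^ b = 0 := by
  set y : E := φ a - x with hy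
  have hxy : Commute x y := hxa.sub_right (Commute.refl x)
  have hprod : x * y = φ c := by
    have h' : φ c = φ a * x - x * x := by
      have := h
      rw [sub_add_eq_add_sub, sub_eq_zero] at this
      rw [← this]; abel
    rw [hy, mul_sub, hxa.eq, h']
  have hsum : ∀ n, x ^ n + y ^ n = φ (lucasV a c n) := by
    refine two_step ?_ ?_ ?_
    · rw [pow_zero, pow_zero, lucasV_zero, map_ofNat]; norm_num
    · rw [pow_one, pow_one, lucasV_one, hy]; abel
    · intro n h0 h1
      rw [pow_add_pow_succ_succ hxy, h1, h0, lucasV_add_two, map_sub, map_mul, map_mul, hprod]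
      congr 2
      rw [hy]; abel
  rw [← hsum b, ← hprod, hxy.mul_pow, add_mul, (hxy.pow_pow b b).eq]
  abel

section Trace

variable {T V : Type*} [CommRing T] [AddCommGroup V] [Module T V] [Module.Free T V]
  [Module.Finite T V]

/-- Trace of powers of a rank-2 endomorphism with characteristic polynomial `X² - aX + c`. -/
theorem trace_pow_eq_lucasV (h2 : Module.finrank T V = 2) (f : Module.End T V) (a c : T)
    (hf : f.charpoly = X ^ 2 - C a * X + C c) (b : ℕ) :
    LinearMap.trace T V (f ^ b) = lucasV a c b := by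
  rcases subsingleton_or_nontrivial T with hT | hT
  · exact Subsingleton.elim _ _
  have hCH : f ^ 2 = a • f - c • (1 : Module.End T V) := by
    have h := LinearMap.aeval_self_charpoly f
    rw [hf] at h
    simp only [map_add, map_sub, map_mul, map_pow, aeval_X, aeval_C, Algebra.algebraMap_eq_smul_one,
      smul_mul_assoc, one_mul] at h
    rw [sub_add_eq_add_sub, sub_eq_zero] at h
    rw [← h]; abel
  have htr1 : LinearMap.trace T V f = a := by
    let bas := Module.Free.chooseBasis T V
    have hcard : Fintype.card (Module.Free.ChooseBasisIndex T V) = 2 := by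
      rw [← Module.finrank_eq_card_chooseBasisIndex, h2]
    have : Nonempty (Module.Free.ChooseBasisIndex T V) := by
      rw [← Fintype.card_pos_iff, hcard]; norm_num
    rw [LinearMap.trace_eq_matrix_trace T bas, Matrix.trace_eq_neg_charpoly_coeff,
      LinearMap.charpoly_toMatrix, hf, hcard]
    simp [coeff_C]
  refine two_step (P := fun b => LinearMap.trace T V (f ^ b) = lucasV a c b) ?_ ?_ ?_ b
  · rw [pow_zero, LinearMap.trace_one, h2, lucasV_zero]; norm_num
  · rw [pow_one, htr1, lucasV_one]
  · intro n h0 h1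
    have : f ^ (n + 2) = a • f ^ (n + 1) - c • f ^ n := by
      rw [pow_add, hCH, mul_sub, mul_smul_comm, mul_smul_comm, mul_one, ← pow_succ]
    rw [this, map_sub, map_smul, map_smul, h1, h0, lucasV_add_two, smul_eq_mul, smul_eq_mul]

end Trace

end Fermat.Agent.S31.Lucas
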