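/-
S31 glue, part 3 (helper211): Frobenius elements and inertia on roots of unity of order prime to
the residue characteristic.
-/
import Mathlib
import Fermat.Prelude.Def_EllipticCurve_FrobeniusTrace

set_option autoImplicit false

namespace Fermat.Agent.S31.RootsUnity

open IsLocalRing

variable {L : Type*} [Field L]

theorem valuation_eq_one_of_pow_eq_one (A : ValuationSubring L) {x : L} {m : ℕ} (hm : m ≠ 0)
    (hx : x ^ m = 1) : A.valuation x = 1 := by
  have h : A.valuation x ^ m = 1 := by rw [← map_pow, hx, map_one]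
  rcases lt_trichotomy (A.valuation x) 1 with hlt | heq | hgt
  · exact absurd h (pow_lt_one₀ zero_le hlt hm).ne
  · exact heq
  · exact absurd h (one_lt_pow₀ hgt hm).ne'

/-- If a nontrivial `m`-th root of unity is congruent to `1` modulo the maximal ideal of `A`, then
`m` lies in the maximal ideal. -/
theorem natCast_mem_nonunits_of_root (A : ValuationSubring L) (ξ : L) (m : ℕ) (hm : ξ ^ m = 1)
    (hξ : ξ ≠ 1) (hmem : ξ - 1 ∈ A.nonunits) : (m : L) ∈ A.nonunits := by
  rcases Nat.eq_zero_or_pos m with rfl | hmpos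
  · rw [Nat.cast_zero]
    exact A.mem_nonunits_iff.mpr (by rw [map_zero]; exact zero_lt_one)
  have hm0 : m ≠ 0 := hmpos.ne'
  have hξA : ξ ∈ A := (A.valuation_le_one_iff ξ).mp (valuation_eq_one_of_pow_eq_one A hm0 hm).le
  -- geometric sum vanishes
  have hsum : ∑ i ∈ Finset.range m, ξ ^ i = 0 := by
    have h := mul_geom_sum ξ m
    rw [hm, sub_self] at h
    exact (mul_eq_zero.mp h).resolve_left (sub_ne_zero.mpr hξ)
  let ξ' : A := ⟨ξ, hξA⟩
  have hres : residue A ξ' = 1 := by
    rw [← sub_eq_zero, ← map_one (residue A), ← map_sub, residue_eq_zero_iff,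
      ← ValuationSubring.coe_mem_nonunits_iff]
    exact hmem
  have hsum' : ∑ i ∈ Finset.range m, ξ' ^ i = 0 := by
    apply Subtype.ext
    rw [AddSubmonoidClass.coe_finsetSum]
    simpa using hsum
  have h0 : residue A (m : A) = 0 := by
    have := congrArg (residue A) hsum'
    rw [map_sum, map_zero] at this
    simp only [map_pow, hres, one_pow, Finset.sum_const, Finset.card_range, nsmul_eq_mul,
      mul_one] at this
    rw [map_natCast]
    exact this
  rw [residue_eq_zero_iff, ← ValuationSubring.coe_mem_nonunits_iff] at h0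
  simpa using h0

/-- Two `p^n`-th roots of unity that are congruent modulo the maximal ideal of a valuation
subring of residue characteristic `r ≠ p` are equal. -/
theorem eq_of_sub_mem_nonunits (A : ValuationSubring L) {r p n : ℕ} (hr : r.Prime) (hp : p.Prime)
    (hne : p ≠ r) (hA : (r : L) ∈ A.nonunits) (x y : L) (hx : x ^ (p ^ n) = 1)
    (hy : y ^ (p ^ n) = 1) (hxy : x - y ∈ A.nonunits) : x = y := by
  by_contra hcon
  have hpn : p ^ n ≠ 0 := pow_ne_zero n hp.ne_zero
  have hy0 : y ≠ 0 := by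
    rintro rfl
    rw [zero_pow hpn] at hy
    exact zero_ne_one hy
  have hvy : A.valuation y = 1 := valuation_eq_one_of_pow_eq_one A hpn hy
  have h1 : (x * y⁻¹) ^ (p ^ n) = 1 := by rw [mul_pow, inv_pow, hx, hy, inv_one, mul_one]
  have h2 : x * y⁻¹ ≠ 1 := by
    intro h
    apply hcon
    rw [← mul_one x, ← inv_mul_cancel₀ hy0, ← mul_assoc, h, one_mul]
  have h3 : x * y⁻¹ - 1 ∈ A.nonunits := by
    have : x * y⁻¹ - 1 = (x - y) * y⁻¹ := by
      rw [sub_mul, mul_inv_cancel₀ hy0]
    rw [this, A.mem_nonunits_iff, map_mul, map_inv₀, hvy, inv_one, mul_one]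
    exact A.mem_nonunits_iff.mp hxy
  have h4 := natCast_mem_nonunits_of_root A (x * y⁻¹) (p ^ n) h1 h2 h3
  -- so `p` and `r` both lie in the maximal ideal: contradiction
  have hpA : ((p : A) : L) ∈ A.nonunits := by
    rw [A.mem_nonunits_iff] at h4 ⊢
    rw [Nat.cast_pow, map_pow] at h4
    by_contra hge
    push Not at hge
    have : A.valuation ((p : A) : L) = 1 := le_antisymm
      ((A.valuation_le_one_iff _).mpr (p : A).2) hge
    have h5 : A.valuation (p : L) = 1 := by simpa using this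
    rw [h5, one_pow] at h4
    exact lt_irrefl _ h4
  have hrA : ((r : A) : L) ∈ A.nonunits := by simpa using hA
  rw [ValuationSubring.coe_mem_nonunits_iff] at hpA hrA
  have hcop : IsCoprime (p : ℤ) (r : ℤ) :=
    Nat.isCoprime_iff_coprime.mpr ((Nat.coprime_primes hp hr).mpr hne)
  obtain ⟨a, b, hab⟩ := hcop
  have h6 : (1 : A) ∈ maximalIdeal A := by
    have : (1 : A) = (a : A) * (p : A) + (b : A) * (r : A) := by
      have := congrArg (Int.cast : ℤ → A) hab
      push_cast at this
      exact this.symm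
    rw [this]
    exact Ideal.add_mem _ (Ideal.mul_mem_left _ _ hpA) (Ideal.mul_mem_left _ _ hrA)
  exact (Ideal.ne_top_iff_one _).mp (maximalIdeal.isMaximal A).ne_top h6

variable {K : Type*} [Field K] [Algebra K L]

/-- A Frobenius element at `ℓ` raises `p`-power roots of unity (`p ≠ ℓ`) to the `ℓ`-th power. -/
theorem frobenius_apply_root (A : ValuationSubring L) {ℓ p n : ℕ} (hℓ : ℓ.Prime) (hp : p.Prime)
    (hne : p ≠ ℓ) (hA : A.LiesOverPrime ℓ) (s : L ≃ₐ[K] L) (hs : A.IsFrobeniusAt s ℓ)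
    (ζ : L) (hζ : ζ ^ (p ^ n) = 1) : s ζ = ζ ^ ℓ := by
  have hpn : p ^ n ≠ 0 := pow_ne_zero n hp.ne_zero
  have hζA : ζ ∈ A := (A.valuation_le_one_iff ζ).mp (valuation_eq_one_of_pow_eq_one A hpn hζ).le
  refine eq_of_sub_mem_nonunits (n := n) A hℓ hp hne hA (s ζ) (ζ ^ ℓ) ?_ ?_ ?_
  · rw [← map_pow, hζ, map_one]
  · rw [← pow_mul, mul_comm, pow_mul, hζ, one_pow]
  · obtain ⟨hσ, hfrob⟩ := hs
    have h := hfrob (residue A ⟨ζ, hζA⟩)
    rw [← IsLocalRing.ResidueField.residue_smul, ← map_pow, ← sub_eq_zero, ← map_sub,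
      residue_eq_zero_iff, ← ValuationSubring.coe_mem_nonunits_iff] at h
    exact h

/-- Inertia at `q` fixes `p`-power roots of unity (`p ≠ q`). -/
theorem inertia_apply_root (P : ValuationSubring L) {q p n : ℕ} (hq : q.Prime) (hp : p.Prime)
    (hne : p ≠ q) (hP : P.LiesOverPrime q) (τ : L ≃ₐ[K] L) (hτ : τ ∈ P.inertiaSubgroupIn K)
    (ζ : L) (hζ : ζ ^ (p ^ n) = 1) : τ ζ = ζ := by
  have hpn : p ^ n ≠ 0 := pow_ne_zero n hp.ne_zero
  have hζP : ζ ∈ P := (P.valuation_le_one_iff ζ).mp (valuation_eq_one_of_pow_eq_one P hpn hζ).le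
  refine eq_of_sub_mem_nonunits P hq hp hne hP (τ ζ) ζ ?_ hζ ?_
  · rw [← map_pow, hζ, map_one]
  · obtain ⟨τ', hτ', rfl⟩ := Subgroup.mem_map.mp hτ
    have h1 : MulSemiringAction.toRingAut (P.decompositionSubgroup K) (ResidueField P) τ' = 1 :=
      MonoidHom.mem_ker.mp hτ'
    have h := congrArg (fun f : RingAut (ResidueField P) => f (residue P ⟨ζ, hζP⟩)) h1
    simp only [MulSemiringAction.toRingAut_apply, RingAut.one_apply] at h
    have h' : τ' • residue P ⟨ζ, hζP⟩ = residue P ⟨ζ, hζP⟩ := h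
    rw [← IsLocalRing.ResidueField.residue_smul, ← sub_eq_zero, ← map_sub,
      residue_eq_zero_iff, ← ValuationSubring.coe_mem_nonunits_iff] at h'
    exact h'

end Fermat.Agent.S31.RootsUnity
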