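/-
S31 glue (helper211): `H.ρ` is unramified outside `S`, from the Eichler–Shimura matrix data
`S30.ESData N p` (the input of the S30 engine) and Frobenius density in power form.

No Chebotarev, no Carayol lemma, no reducedness of `T`, any characteristic of `𝒪`.

Idea: `R := ℤ[t_ℓ : ℓ ∉ S] ⊆ M_r(ℤ)` maps to the Hecke algebra (by `D.occ`), hence to `T`.
For `g ∈ G_ℚ`, `τ` in inertia at `q ∉ S` and `n`, choose Frobenii `s₁, s₂` with
`s₁^b₁ = g`, `s₂^b₂ = g τ` on a finite level.  Lucas' identity gives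
`ρ_D(g)² - V_{b_i}(t_{ℓ_i}) ρ_D(g) + ℓ_i^{b_i} ≡ 0 (mod p^n)` for `i = 1, 2`, so
`V_{b₁}(t_{ℓ₁}) - V_{b₂}(t_{ℓ₂}) ∈ R ∩ p^n M_r(ℤ) ⊆ p^{n-c} R` (Artin–Rees), whose image in `T` is
`tr H.ρ(g) - tr H.ρ(g τ)` modulo `𝔪^{n-c}`.  Krull's intersection theorem and trace rigidity
(`Rigid211`) finish.
-/
import Mathlib
import Fermat.Prelude.Def_CuspForm_HeckeGaloisRepDatum
import Fermat.Agent.S30.Defs
import Fermat.Agent.S31.Lucas
import Fermat.Agent.S31.Rigid211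
import Fermat.Agent.S31.RootsUnity

set_option autoImplicit false

noncomputable section

namespace Fermat.Agent.S31.Glue

open Fermat.Agent.S30 Fermat.Agent.S31.Lucas IsLocalRing

/-- **(D)** Frobenius density in power form: every element of `G_ℚ` agrees on any finite level
with a power of a Frobenius element at a prime outside any given finite set. -/
def FrobDensity : Prop :=
  ∀ (L : IntermediateField ℚ (AlgebraicClosure ℚ)) [FiniteDimensional ℚ L] (S : Finset ℕ) (g : GQ),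
    ∃ (ℓ : ℕ) (A : ValuationSubring (AlgebraicClosure ℚ)) (s : GQ) (b : ℕ),
      ℓ.Prime ∧ ℓ ∉ S ∧ A.LiesOverPrime ℓ ∧ A.IsFrobeniusAt s ℓ ∧ 0 < b ∧
        ∀ x ∈ L, (s ^ b) x = g x

section General

variable {T V : Type*} [CommRing T] [AddCommGroup V] [Module T V] [Module.Free T V]
  [Module.Finite T V]

/-- The trace of an endomorphism with image in `I • V` lies in `I`. -/
theorem trace_mem_of_forall_mem_smul (I : Ideal T) (f : Module.End T V)
    (h : ∀ v, f v ∈ I • (⊤ : Submodule T V)) : LinearMap.trace T V f ∈ I := by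
  classical
  let e := Module.Free.chooseBasis T V
  have key : ∀ w ∈ I • (⊤ : Submodule T V), ∀ j, e.repr w j ∈ I := by
    intro w hw j
    refine Submodule.smul_induction_on (p := fun w => e.repr w j ∈ I) hw ?_ ?_
    · intro a ha v _
      rw [map_smul, Finsupp.smul_apply, smul_eq_mul]
      exact Ideal.mul_mem_right _ _ ha
    · intro x y hx hy
      rw [map_add, Finsupp.add_apply]
      exact Ideal.add_mem _ hx hy
  rw [LinearMap.trace_eq_matrix_trace T e, Matrix.trace]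
  refine Ideal.sum_mem _ fun i _ => ?_
  rw [Matrix.diag_apply, LinearMap.toMatrix_apply]
  exact key _ (h _) i

omit [Module.Free T V] [Module.Finite T V] in
/-- Linear maps preserve `I • ⊤`. -/
theorem map_mem_smul_top (I : Ideal T) (f : Module.End T V) {w : V}
    (hw : w ∈ I • (⊤ : Submodule T V)) : f w ∈ I • (⊤ : Submodule T V) := by
  refine Submodule.smul_induction_on (p := fun w => f w ∈ I • (⊤ : Submodule T V)) hw ?_ ?_
  · intro a ha v _
    rw [map_smul]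
    exact Submodule.smul_mem_smul ha Submodule.mem_top
  · intro x y hx hy
    rw [map_add]
    exact Submodule.add_mem _ hx hy

end General

section Hecke

variable {N p : ℕ} [NeZero N] [Fact p.Prime] (D : ESData N p) (S : Finset ℕ)

/-- Index set of the Hecke operators of the anemic Hecke algebra away from `S`. -/
abbrev Idx (N : ℕ) (S : Finset ℕ) : Type := {ℓ : ℕ // ℓ.Prime ∧ ¬ ℓ ∣ N ∧ ℓ ∉ (↑S : Set ℕ)}

/-- The `ℤ`-algebra generated by the Hecke matrices `t_ℓ`, `ℓ ∉ S`. -/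
def Rt : Subalgebra ℤ (Matrix (Fin D.r) (Fin D.r) ℤ) :=
  Algebra.adjoin ℤ (Set.range fun i : Idx N S => D.t i.1)

instance instIsMulCommutativeRt : IsMulCommutative (Rt D S) :=
  Algebra.isMulCommutative_adjoin ℤ (by
    rintro _ ⟨i, rfl⟩ _ ⟨j, rfl⟩
    exact (D.t_comm i.1 j.1).eq)

open scoped IsMulCommutative in
instance instCommRingRt : CommRing (Rt D S) := inferInstance

/-- Evaluation of polynomials at the Hecke matrices. -/
def a1 : MvPolynomial (Idx N S) ℤ →ₐ[ℤ] Rt D S :=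
  MvPolynomial.aeval fun i => ⟨D.t i.1, Algebra.subset_adjoin ⟨i, rfl⟩⟩

/-- Evaluation of polynomials at the Hecke operators. -/
def a2 : MvPolynomial (Idx N S) ℤ →ₐ[ℤ] CuspForm.heckeAlgebra N 2 (↑S : Set ℕ) :=
  MvPolynomial.aeval fun i => CuspForm.heckeAlgebra.T i.2.1 i.2.2.1 i.2.2.2

/-- `a1` as a ring hom into integer matrices. -/
def m1 : MvPolynomial (Idx N S) ℤ →+* Matrix (Fin D.r) (Fin D.r) ℤ :=
  (Rt D S).val.toRingHom.comp (a1 D S).toRingHom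

theorem m1_X (i : Idx N S) : m1 D S (MvPolynomial.X i) = D.t i.1 := by
  simp [m1, a1]

theorem m1_mem (P : MvPolynomial (Idx N S) ℤ) : m1 D S P ∈ Rt D S := (a1 D S P).2

theorem m1_eq_zero_iff (P : MvPolynomial (Idx N S) ℤ) : m1 D S P = 0 ↔ a1 D S P = 0 := by
  constructor
  · intro h
    exact Subtype.ext h
  · intro h
    simp [m1, h]

/-- `a2` as a ring hom into endomorphisms of cusp forms. -/
def e2 : MvPolynomial (Idx N S) ℤ →+*
    Module.End ℂ (CuspForm (CongruenceSubgroup.Gamma0 N) 2) :=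
  (CuspForm.heckeAlgebra N 2 (↑S : Set ℕ)).val.toRingHom.comp (a2 (N := N) S).toRingHom

theorem e2_X (i : Idx N S) :
    e2 (N := N) S (MvPolynomial.X i) = CuspForm.heckeTLin 2 i.2.1 i.2.2.1 := by
  simp [e2, a2]

theorem m1_surjective {x : Matrix (Fin D.r) (Fin D.r) ℤ} (hx : x ∈ Rt D S) :
    ∃ Q : MvPolynomial (Idx N S) ℤ, m1 D S Q = x := by
  induction hx using Algebra.adjoin_induction with
  | mem x hx =>
    obtain ⟨i, rfl⟩ := hx
    exact ⟨MvPolynomial.X i, m1_X D S i⟩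
  | algebraMap r =>
    refine ⟨MvPolynomial.C r, ?_⟩
    rw [← MvPolynomial.algebraMap_eq, eq_intCast, eq_intCast, map_intCast]
  | add x y _ _ hx hy =>
    obtain ⟨Q, rfl⟩ := hx
    obtain ⟨Q', rfl⟩ := hy
    exact ⟨Q + Q', map_add _ _ _⟩
  | mul x y _ _ hx hy =>
    obtain ⟨Q, rfl⟩ := hx
    obtain ⟨Q', rfl⟩ := hy
    exact ⟨Q * Q', map_mul _ _ _⟩

/-- Hecke equivariance of the embedding `Φ` of `D.occ`, for all polynomials in the `T_ℓ`. -/
theorem occ_eval (hpS : p ∈ S)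
    (Φ : CuspForm (CongruenceSubgroup.Gamma0 N) 2 →ₗ[ℂ] (Fin D.r → ℂ))
    (hΦ : ∀ (ℓ : ℕ) (hℓ : ℓ.Prime) (hℓN : ¬ ℓ ∣ N), ℓ ≠ p →
      ∀ f : CuspForm (CongruenceSubgroup.Gamma0 N) 2,
        Φ (CuspForm.heckeTLin 2 hℓ hℓN f) = ((D.t ℓ).map (Int.castRingHom ℂ)).mulVec (Φ f))
    (P : MvPolynomial (Idx N S) ℤ) :
    ∀ f : CuspForm (CongruenceSubgroup.Gamma0 N) 2,
      Φ (e2 (N := N) S P f) = ((m1 D S P).map (Int.castRingHom ℂ)).mulVec (Φ f) := by
  induction P using MvPolynomial.induction_on with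
  | C r =>
    intro f
    rw [← MvPolynomial.algebraMap_eq, eq_intCast, map_intCast, map_intCast,
      Module.End.intCast_apply, map_zsmul]
    have : ((r : Matrix (Fin D.r) (Fin D.r) ℤ)).map (Int.castRingHom ℂ) =
        ((r : ℤ) : Matrix (Fin D.r) (Fin D.r) ℂ) := by
      have := map_intCast ((Int.castRingHom ℂ).mapMatrix :
        Matrix (Fin D.r) (Fin D.r) ℤ →+* Matrix (Fin D.r) (Fin D.r) ℂ) r
      rw [RingHom.mapMatrix_apply] at this
      exact this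
    rw [this, Matrix.intCast_mulVec, Int.cast_smul_eq_zsmul]
  | add P Q hP hQ =>
    intro f
    rw [map_add, map_add, LinearMap.add_apply, map_add, hP f, hQ f, Matrix.map_add,
      Matrix.add_mulVec]
    · exact fun _ _ => Int.cast_add _ _
  | mul_X P i hP =>
    intro f
    have hne : i.1 ≠ p := fun h => i.2.2.2 (h ▸ Finset.mem_coe.mpr hpS)
    rw [map_mul, map_mul, Module.End.mul_apply, hP, e2_X, hΦ i.1 i.2.1 i.2.2.1 hne, m1_X,
      Matrix.mulVec_mulVec, Matrix.map_mul]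

/-- Relations among the Hecke matrices hold among the Hecke operators. -/
theorem a2_eq_zero_of_a1_eq_zero (hpS : p ∈ S) (P : MvPolynomial (Idx N S) ℤ)
    (h : a1 D S P = 0) : a2 (N := N) S P = 0 := by
  obtain ⟨Φ, hinj, hΦ⟩ := D.occ
  have h1 : m1 D S P = 0 := (m1_eq_zero_iff D S P).mpr h
  apply Subtype.ext
  refine LinearMap.ext fun f => hinj ?_
  have := occ_eval D S hpS Φ hΦ P f
  rw [h1] at this
  simpa [e2] using this

end Hecke

section VSide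

variable {N p : ℕ} [NeZero N] [Fact p.Prime] (D : ESData N p) (S : Finset ℕ)

/-- The quotient ring `ℤ_p / p^n`. -/
abbrev Qn (p n : ℕ) [Fact p.Prime] : Type := ℤ_[p] ⧸ Ideal.span {(p : ℤ_[p]) ^ n}

/-- Reduction of matrices modulo `p^n`. -/
def red (n : ℕ) : Matrix (Fin D.r) (Fin D.r) ℤ_[p] →+* Matrix (Fin D.r) (Fin D.r) (Qn p n) :=
  (Ideal.Quotient.mk (Ideal.span {(p : ℤ_[p]) ^ n})).mapMatrix

/-- `m1` with `p`-adic coefficients. -/
def mp : MvPolynomial (Idx N S) ℤ →+* Matrix (Fin D.r) (Fin D.r) ℤ_[p] :=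
  (Int.castRingHom ℤ_[p]).mapMatrix.comp (m1 D S)

theorem mp_X (i : Idx N S) :
    mp D S (MvPolynomial.X i) = (D.t i.1).map (Int.castRingHom ℤ_[p]) := by
  simp [mp, m1_X]

theorem mp_apply (Q : MvPolynomial (Idx N S) ℤ) (i j : Fin D.r) :
    mp D S Q i j = ((m1 D S Q i j : ℤ) : ℤ_[p]) := by
  simp [mp]

theorem red_rho_eq_one (n : ℕ) (σ : GQ)
    (h : ∀ i j, (D.ρ σ - 1) i j ∈ Ideal.span {(p : ℤ_[p]) ^ n}) : red D n (D.ρ σ) = 1 := by
  have h0 : red D n (D.ρ σ - 1) = 0 := by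
    ext i j
    rw [red, RingHom.mapMatrix_apply, Matrix.map_apply, Matrix.zero_apply]
    exact Ideal.Quotient.eq_zero_iff_mem.mpr (h i j)
  rw [map_sub, map_one, sub_eq_zero] at h0
  exact h0

/-- The Lucas relation modulo `p^n` for an element agreeing with a Frobenius power on the level
field of `ρ_D mod p^n`. -/
theorem vside (n : ℕ) (L₁ : IntermediateField ℚ (AlgebraicClosure ℚ))
    (hL₁ : ∀ σ : GQ, (∀ x ∈ L₁, σ x = x) →
      ∀ i j, (D.ρ σ - 1) i j ∈ Ideal.span {(p : ℤ_[p]) ^ n})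
    (hpS : p ∈ S) (i : Idx N S) (A : ValuationSubring (AlgebraicClosure ℚ))
    (hA : A.LiesOverPrime i.1) (s : GQ) (hs : A.IsFrobeniusAt s i.1) (b : ℕ) (g : GQ)
    (hg : ∀ x ∈ L₁, (s ^ b) x = g x) :
    red D n (D.ρ g) * red D n (D.ρ g)
      - red D n (mp D S (lucasV (MvPolynomial.X i) (i.1 : MvPolynomial (Idx N S) ℤ) b))
          * red D n (D.ρ g)
      + ((i.1 ^ b : ℕ) : Matrix (Fin D.r) (Fin D.r) (Qn p n)) = 0 := by
  have hne : i.1 ≠ p := fun h => i.2.2.2 (h ▸ Finset.mem_coe.mpr hpS)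
  have hσ : red D n (D.ρ ((s ^ b)⁻¹ * g)) = 1 := by
    refine red_rho_eq_one D n _ (hL₁ _ fun x hx => ?_)
    rw [AlgEquiv.mul_apply, ← hg x hx]
    exact (s ^ b).symm_apply_apply x
  have hgs : red D n (D.ρ g) = red D n (D.ρ s) ^ b := by
    have h1 : g = s ^ b * ((s ^ b)⁻¹ * g) := by group
    conv_lhs => rw [h1, map_mul, map_mul, hσ, mul_one, map_pow, map_pow]
  let φ : MvPolynomial (Idx N S) ℤ →+* Matrix (Fin D.r) (Fin D.r) (Qn p n) :=
    (red D n).comp (mp D S)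
  have hxa : Commute (red D n (D.ρ s)) (φ (MvPolynomial.X i)) := by
    have := (D.ρ_comm s i.1).map (red D n)
    rwa [← mp_X D S i] at this
  have hes : red D n (D.ρ s) * red D n (D.ρ s) - φ (MvPolynomial.X i) * red D n (D.ρ s)
      + φ (i.1 : MvPolynomial (Idx N S) ℤ) = 0 := by
    have := congrArg (red D n) (D.es i.1 i.2.1 i.2.2.1 hne A hA s hs)
    rw [map_add, map_sub, map_mul, map_mul, map_zero, map_natCast, ← mp_X D S i] at this
    rw [map_natCast]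
    exact this
  have hL := lucas_pow φ (red D n (D.ρ s)) (MvPolynomial.X i) (i.1 : MvPolynomial (Idx N S) ℤ)
    hxa hes b
  rw [map_natCast] at hL
  rw [hgs, Nat.cast_pow]
  exact hL

end VSide

section Main

variable {p : ℕ} {N : ℕ} [NeZero N] {S : Finset ℕ}
  {𝒪 : Type} [CommRing 𝒪] [IsDomain 𝒪] [IsDiscreteValuationRing 𝒪]
  [IsAdicComplete (IsLocalRing.maximalIdeal 𝒪) 𝒪]
  {θ : CuspForm.heckeAlgebra N 2 (↑S : Set ℕ) →+* IsLocalRing.ResidueField 𝒪}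
  {T : Type} [CommRing T] [IsLocalRing T] [IsNoetherianRing T]
  [IsAdicComplete (IsLocalRing.maximalIdeal T) T] [Algebra 𝒪 T] [IsLocalHom (algebraMap 𝒪 T)]
  [Module.Finite 𝒪 T] [Module.Free 𝒪 T]

theorem pow_apply_root (s : GQ) (ζ : AlgebraicClosure ℚ) (ℓ : ℕ) (h : s ζ = ζ ^ ℓ) (b : ℕ) :
    (s ^ b) ζ = ζ ^ (ℓ ^ b) := by
  induction b with
  | zero => simp
  | succ b ih =>
    rw [pow_succ', AlgEquiv.mul_apply, ih, map_pow, h, ← pow_mul, pow_succ']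

omit [IsNoetherianRing T] [IsAdicComplete (maximalIdeal T) T] in
/-- Congruence of the `H`-trace of `g` with that of a Frobenius power. -/
theorem trace_sub_mem (ρ : GaloisRepAdic T) (n : ℕ)
    (L₂ : IntermediateField ℚ (AlgebraicClosure ℚ))
    (hL₂ : ∀ σ : GQ, (∀ x ∈ L₂, σ x = x) →
      ∀ v : ρ.V, ρ.ρ σ v - v ∈ (maximalIdeal T ^ n) • (⊤ : Submodule T ρ.V))
    (s g : GQ) (hg : ∀ x ∈ L₂, s x = g x) :
    LinearMap.trace T ρ.V (ρ.ρ g) - LinearMap.trace T ρ.V (ρ.ρ s) ∈ maximalIdeal T ^ n := by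
  have hσ : ∀ x ∈ L₂, (s⁻¹ * g) x = x := by
    intro x hx
    rw [AlgEquiv.mul_apply, ← hg x hx]
    exact s.symm_apply_apply x
  have h1 : g = s * (s⁻¹ * g) := by group
  have h2 : ρ.ρ g - ρ.ρ s = ρ.ρ s * (ρ.ρ (s⁻¹ * g) - 1) := by
    rw [mul_sub, mul_one, ← map_mul, ← h1]
  rw [← map_sub, h2]
  refine trace_mem_of_forall_mem_smul _ _ fun v => ?_
  rw [Module.End.mul_apply]
  refine map_mem_smul_top _ _ ?_
  rw [LinearMap.sub_apply, Module.End.one_apply]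
  exact hL₂ _ hσ v

/-- **Trace invariance under inertia** at a prime outside `S`. -/
theorem trace_invariant [Fact p.Prime] (hp𝒪 : (p : 𝒪) ∈ maximalIdeal 𝒪) (hpS : p ∈ S)
    (hNS : ∀ q : ℕ, q.Prime → q ∣ N → q ∈ S)
    (H : CuspForm.HeckeGaloisRepDatum N (↑S : Set ℕ) 𝒪 θ T)
    (D : ESData N p) (hdens : FrobDensity)
    (q : ℕ) (hq : q.Prime) (hqS : q ∉ S)
    (P : ValuationSubring (AlgebraicClosure ℚ)) (hP : P.LiesOverPrime q)
    (τ : GQ) (hτ : τ ∈ P.inertiaSubgroupIn ℚ) (g : GQ) :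
    LinearMap.trace T H.ρ.V (H.ρ.ρ (g * τ)) = LinearMap.trace T H.ρ.V (H.ρ.ρ g) := by
  have hp : p.Prime := Fact.out
  have hqp : q ≠ p := fun h => hqS (h ▸ hpS)
  have hqN : ¬ q ∣ N := fun h => hqS (hNS q hq h)
  have hρτ : D.ρ τ = 1 := D.unr q hq hqN hqp P hP τ hτ
  have hpT : (p : T) ∈ maximalIdeal T := by
    have h1 : (p : T) = algebraMap 𝒪 T (p : 𝒪) := (map_natCast _ _).symm
    rw [h1, mem_maximalIdeal, mem_nonunits_iff]
    intro hu
    exact hp𝒪 (isUnit_of_map_unit (algebraMap 𝒪 T) _ hu)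
  obtain ⟨k, hk⟩ := Ideal.exists_pow_inf_eq_pow_smul (Ideal.span {(p : ℤ)})
    (Subalgebra.toSubmodule (Rt D S))
  let ψ : MvPolynomial (Idx N S) ℤ →+* T := H.π.comp (a2 (N := N) S).toRingHom
  have hψX : ∀ i : Idx N S, ψ (MvPolynomial.X i) =
      H.π (CuspForm.heckeAlgebra.T i.2.1 i.2.2.1 i.2.2.2) := by
    intro i
    simp [ψ, a2]
  -- main claim: the difference of traces lies in every power of the maximal ideal
  have hmain : ∀ n : ℕ, LinearMap.trace T H.ρ.V (H.ρ.ρ (g * τ))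
      - LinearMap.trace T H.ρ.V (H.ρ.ρ g) ∈ maximalIdeal T ^ n := by
    intro n
    obtain ⟨L₁, hL₁fd, hL₁⟩ := D.cont (n + k)
    obtain ⟨L₂, hL₂fd, hL₂⟩ := H.ρ.isAdicContinuous n
    obtain ⟨ζ, hζ⟩ := HasEnoughRootsOfUnity.exists_primitiveRoot (AlgebraicClosure ℚ)
      (p ^ (n + k))
    let L₃ : IntermediateField ℚ (AlgebraicClosure ℚ) := IntermediateField.adjoin ℚ {ζ}
    have : FiniteDimensional ℚ L₃ :=
      IntermediateField.adjoin.finiteDimensional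
        ((AlgebraicClosure.isAlgebraic ℚ).isAlgebraic ζ).isIntegral
    have := hL₁fd
    have := hL₂fd
    let L : IntermediateField ℚ (AlgebraicClosure ℚ) := L₁ ⊔ L₂ ⊔ L₃
    have hL₁L : L₁ ≤ L := le_sup_left.trans le_sup_left
    have hL₂L : L₂ ≤ L := le_sup_right.trans le_sup_left
    have hζL : ζ ∈ L :=
      (le_sup_right : L₃ ≤ L) (IntermediateField.mem_adjoin_simple_self ℚ ζ)
    obtain ⟨ℓ₁, A₁, s₁, b₁, hℓ₁, hℓ₁S, hA₁, hs₁, -, hg₁⟩ := hdens L S g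
    obtain ⟨ℓ₂, A₂, s₂, b₂, hℓ₂, hℓ₂S, hA₂, hs₂, -, hg₂⟩ := hdens L S (g * τ)
    have hℓ₁p : p ≠ ℓ₁ := fun h => hℓ₁S (h ▸ hpS)
    have hℓ₂p : p ≠ ℓ₂ := fun h => hℓ₂S (h ▸ hpS)
    let i₁ : Idx N S := ⟨ℓ₁, hℓ₁, fun h => hℓ₁S (hNS ℓ₁ hℓ₁ h), fun h => hℓ₁S (Finset.mem_coe.mp h)⟩
    let i₂ : Idx N S := ⟨ℓ₂, hℓ₂, fun h => hℓ₂S (hNS ℓ₂ hℓ₂ h), fun h => hℓ₂S (Finset.mem_coe.mp h)⟩
    let P₁ : MvPolynomial (Idx N S) ℤ :=
      lucasV (MvPolynomial.X i₁) (ℓ₁ : MvPolynomial (Idx N S) ℤ) b₁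
    let P₂ : MvPolynomial (Idx N S) ℤ :=
      lucasV (MvPolynomial.X i₂) (ℓ₂ : MvPolynomial (Idx N S) ℤ) b₂
    -- the constants agree modulo `p ^ (n + k)`
    have hζ1 : ζ ^ p ^ (n + k) = 1 := hζ.pow_eq_one
    have hζ0 : ζ ≠ 0 := hζ.ne_zero (pow_ne_zero _ hp.ne_zero)
    have hgζ : g ζ = ζ ^ (ℓ₁ ^ b₁) := by
      rw [← hg₁ ζ hζL]
      exact pow_apply_root s₁ ζ ℓ₁
        (RootsUnity.frobenius_apply_root A₁ hℓ₁ hp hℓ₁p hA₁ s₁ hs₁ ζ hζ1) b₁
    have hgτζ : g ζ = ζ ^ (ℓ₂ ^ b₂) := by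
      have h1 : (g * τ) ζ = g ζ := by
        rw [AlgEquiv.mul_apply,
          RootsUnity.inertia_apply_root P hq hp hqp.symm hP τ hτ ζ hζ1]
      rw [← h1, ← hg₂ ζ hζL]
      exact pow_apply_root s₂ ζ ℓ₂
        (RootsUnity.frobenius_apply_root A₂ hℓ₂ hp hℓ₂p hA₂ s₂ hs₂ ζ hζ1) b₂
    have hdvd : ((p ^ (n + k) : ℕ) : ℤ) ∣ ((ℓ₁ ^ b₁ : ℕ) : ℤ) - ((ℓ₂ ^ b₂ : ℕ) : ℤ) := by
      rw [← hζ.zpow_eq_one_iff_dvd, zpow_sub₀ hζ0, zpow_natCast, zpow_natCast, ← hgζ, ← hgτζ]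
      exact div_self (by rw [hgζ]; exact pow_ne_zero _ hζ0)
    have hconst : ((ℓ₁ ^ b₁ : ℕ) : Matrix (Fin D.r) (Fin D.r) (Qn p (n + k))) =
        ((ℓ₂ ^ b₂ : ℕ) : Matrix (Fin D.r) (Fin D.r) (Qn p (n + k))) := by
      have h1 : ((ℓ₁ ^ b₁ : ℕ) : Qn p (n + k)) = ((ℓ₂ ^ b₂ : ℕ) : Qn p (n + k)) := by
        obtain ⟨e, he⟩ := hdvd
        have h2 : (((ℓ₁ ^ b₁ : ℕ) : ℤ) : Qn p (n + k)) - (((ℓ₂ ^ b₂ : ℕ) : ℤ) : Qn p (n + k))
            = 0 := by
          rw [← Int.cast_sub, he, Int.cast_mul, Int.cast_natCast]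
          have h3 : ((p ^ (n + k) : ℕ) : Qn p (n + k)) = 0 := by
            have : ((p ^ (n + k) : ℕ) : Qn p (n + k)) =
                Ideal.Quotient.mk (Ideal.span {(p : ℤ_[p]) ^ (n + k)}) ((p : ℤ_[p]) ^ (n + k)) := by
              rw [Nat.cast_pow, map_pow, map_natCast]
            rw [this]
            exact Ideal.Quotient.eq_zero_iff_mem.mpr (Ideal.mem_span_singleton_self _)
          rw [h3, zero_mul]
        rw [Int.cast_natCast, Int.cast_natCast, sub_eq_zero] at h2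
        exact h2
      rw [← map_natCast (Matrix.scalar (Fin D.r)) (ℓ₁ ^ b₁),
        ← map_natCast (Matrix.scalar (Fin D.r)) (ℓ₂ ^ b₂), h1]
    -- the two Lucas relations
    have hV₁ := vside D S (n + k) L₁ hL₁ hpS i₁ A₁ hA₁ s₁ hs₁ b₁ g
      (fun x hx => hg₁ x (hL₁L hx))
    have hV₂ := vside D S (n + k) L₁ hL₁ hpS i₂ A₂ hA₂ s₂ hs₂ b₂ (g * τ)
      (fun x hx => hg₂ x (hL₁L hx))
    rw [map_mul, hρτ, mul_one] at hV₂
    have hm : red D (n + k) (mp D S P₁) = red D (n + k) (mp D S P₂) := by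
      have hYY' : red D (n + k) (D.ρ g) * red D (n + k) (D.ρ g⁻¹) = 1 := by
        rw [← map_mul, ← map_mul, mul_inv_cancel, map_one, map_one]
      have e₁ : red D (n + k) (mp D S P₁) * red D (n + k) (D.ρ g) =
          red D (n + k) (D.ρ g) * red D (n + k) (D.ρ g)
            + ((ℓ₁ ^ b₁ : ℕ) : Matrix (Fin D.r) (Fin D.r) (Qn p (n + k))) := by
        rw [sub_add_eq_add_sub, sub_eq_zero] at hV₁
        exact hV₁.symm
      have e₂ : red D (n + k) (mp D S P₂) * red D (n + k) (D.ρ g) =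
          red D (n + k) (D.ρ g) * red D (n + k) (D.ρ g)
            + ((ℓ₂ ^ b₂ : ℕ) : Matrix (Fin D.r) (Fin D.r) (Qn p (n + k))) := by
        rw [sub_add_eq_add_sub, sub_eq_zero] at hV₂
        exact hV₂.symm
      calc red D (n + k) (mp D S P₁)
          = red D (n + k) (mp D S P₁) * red D (n + k) (D.ρ g) * red D (n + k) (D.ρ g⁻¹) := by
            rw [mul_assoc, hYY', mul_one]
        _ = red D (n + k) (mp D S P₂) * red D (n + k) (D.ρ g) * red D (n + k) (D.ρ g⁻¹) := by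
            rw [e₁, e₂, hconst]
        _ = red D (n + k) (mp D S P₂) := by rw [mul_assoc, hYY', mul_one]
    -- entries of the integer matrix are divisible by `p ^ (n + k)`
    have hentry : ∀ i j, ((p ^ (n + k) : ℕ) : ℤ) ∣ m1 D S (P₁ - P₂) i j := by
      intro i j
      have h1 : red D (n + k) (mp D S (P₁ - P₂)) = 0 := by
        rw [map_sub, map_sub, hm, sub_self]
      have h2 := congrFun (congrFun h1 i) j
      rw [red, RingHom.mapMatrix_apply, Matrix.map_apply, Matrix.zero_apply,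
        Ideal.Quotient.eq_zero_iff_mem, Ideal.mem_span_singleton, mp_apply,
        PadicInt.pow_p_dvd_int_iff] at h2
      rw [Nat.cast_pow]
      exact h2
    -- Artin–Rees
    have hd1 : m1 D S (P₁ - P₂) ∈ Ideal.span {(p : ℤ)} ^ (n + k) •
        (⊤ : Submodule ℤ (Matrix (Fin D.r) (Fin D.r) ℤ)) := by
      have h1 : m1 D S (P₁ - P₂) = ((p : ℤ) ^ (n + k)) •
          (Matrix.of fun i j => m1 D S (P₁ - P₂) i j / (p : ℤ) ^ (n + k)) := by
        ext i j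
        rw [Matrix.smul_apply, Matrix.of_apply, smul_eq_mul]
        have := hentry i j
        rw [Nat.cast_pow] at this
        exact (Int.mul_ediv_cancel' this).symm
      rw [h1]
      exact Submodule.smul_mem_smul (Ideal.pow_mem_pow (Ideal.mem_span_singleton_self _) _)
        Submodule.mem_top
    have hd2 : m1 D S (P₁ - P₂) ∈ Ideal.span {(p : ℤ)} ^ n •
        Subalgebra.toSubmodule (Rt D S) := by
      have h1 : m1 D S (P₁ - P₂) ∈ Ideal.span {(p : ℤ)} ^ (n + k) •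
          (⊤ : Submodule ℤ (Matrix (Fin D.r) (Fin D.r) ℤ)) ⊓ Subalgebra.toSubmodule (Rt D S) :=
        ⟨hd1, m1_mem D S _⟩
      rw [hk (n + k) (Nat.le_add_left k n), Nat.add_sub_cancel] at h1
      exact Submodule.smul_mono le_rfl inf_le_right h1
    rw [Ideal.span_singleton_pow, Submodule.ideal_span_singleton_smul] at hd2
    obtain ⟨e, he, hed⟩ := (Submodule.mem_smul_pointwise_iff_exists _ _ _).mp hd2
    obtain ⟨Q, hQ⟩ := m1_surjective D S he
    have h0 : a1 D S (P₁ - P₂ - (p : MvPolynomial (Idx N S) ℤ) ^ n * Q) = 0 := by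
      rw [← m1_eq_zero_iff, map_sub, map_mul, map_pow, map_natCast, hQ, ← hed, zsmul_eq_mul]
      push_cast
      exact sub_self _
    have h2 := a2_eq_zero_of_a1_eq_zero D S hpS _ h0
    have hψ : ψ P₁ - ψ P₂ = (p : T) ^ n * ψ Q := by
      have h3 : ψ (P₁ - P₂ - (p : MvPolynomial (Idx N S) ℤ) ^ n * Q) = 0 := by
        show H.π (a2 (N := N) S _) = 0
        rw [h2, map_zero]
      rw [map_sub, map_sub, map_mul, map_pow, map_natCast, sub_eq_zero] at h3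
      exact h3
    have hψmem : ψ P₁ - ψ P₂ ∈ maximalIdeal T ^ n := by
      rw [hψ]
      exact Ideal.mul_mem_right _ _ (Ideal.pow_mem_pow hpT n)
    -- the `H`-side
    have hψ₁ : ψ P₁ = LinearMap.trace T H.ρ.V (H.ρ.ρ (s₁ ^ b₁)) := by
      rw [map_pow, trace_pow_eq_lucasV H.ρ.finrank_eq (H.ρ.ρ s₁) _ _
        (H.charpoly_frob ℓ₁ hℓ₁ i₁.2.2.1 i₁.2.2.2 A₁ hA₁ s₁ hs₁) b₁]
      show ψ (lucasV _ _ b₁) = _
      rw [map_lucasV, hψX, map_natCast]
    have hψ₂ : ψ P₂ = LinearMap.trace T H.ρ.V (H.ρ.ρ (s₂ ^ b₂)) := by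
      rw [map_pow, trace_pow_eq_lucasV H.ρ.finrank_eq (H.ρ.ρ s₂) _ _
        (H.charpoly_frob ℓ₂ hℓ₂ i₂.2.2.1 i₂.2.2.2 A₂ hA₂ s₂ hs₂) b₂]
      show ψ (lucasV _ _ b₂) = _
      rw [map_lucasV, hψX, map_natCast]
    have hc₁ := trace_sub_mem H.ρ n L₂ hL₂ (s₁ ^ b₁) g (fun x hx => hg₁ x (hL₂L hx))
    have hc₂ := trace_sub_mem H.ρ n L₂ hL₂ (s₂ ^ b₂) (g * τ) (fun x hx => hg₂ x (hL₂L hx))
    rw [← hψ₁] at hc₁
    rw [← hψ₂] at hc₂
    have hfin : LinearMap.trace T H.ρ.V (H.ρ.ρ (g * τ)) - LinearMap.trace T H.ρ.V (H.ρ.ρ g) =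
        (LinearMap.trace T H.ρ.V (H.ρ.ρ (g * τ)) - ψ P₂)
          - (ψ P₁ - ψ P₂) - (LinearMap.trace T H.ρ.V (H.ρ.ρ g) - ψ P₁) := by ring
    rw [hfin]
    exact Ideal.sub_mem _ (Ideal.sub_mem _ hc₂ hψmem) hc₁
  -- Krull's intersection theorem
  have hbot : (⨅ n : ℕ, maximalIdeal T ^ n) = ⊥ :=
    Ideal.iInf_pow_eq_bot_of_isLocalRing (maximalIdeal T) Ideal.IsPrime.ne_top'
  have hmem : LinearMap.trace T H.ρ.V (H.ρ.ρ (g * τ)) - LinearMap.trace T H.ρ.V (H.ρ.ρ g) ∈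
      (⨅ n : ℕ, maximalIdeal T ^ n) := (Ideal.mem_iInf).mpr hmain
  rw [hbot, Ideal.mem_bot] at hmem
  exact sub_eq_zero.mp hmem

/-- **S31 from the S30 engine input**: `H.ρ` is unramified at every prime outside `S`. -/
theorem isUnramifiedAt_of_esData (hp : p.Prime)
    (hp𝒪 : (p : 𝒪) ∈ IsLocalRing.maximalIdeal 𝒪) (hpS : p ∈ S)
    (hNS : ∀ q : ℕ, q.Prime → q ∣ N → q ∈ S)
    (H : CuspForm.HeckeGaloisRepDatum N (↑S : Set ℕ) 𝒪 θ T)
    (q : ℕ) (hq : q.Prime) (hqS : q ∉ S)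
    (D : @ESData N p _ ⟨hp⟩) (hdens : FrobDensity) :
    H.ρ.IsUnramifiedAt q := by
  have : Fact p.Prime := ⟨hp⟩
  intro P hP τ hτ
  exact Rigid211.rho_eq_one_of_trace_invariant H.ρ H.residual_absIrr τ
    (fun g => trace_invariant hp𝒪 hpS hNS H D hdens q hq hqS P hP τ hτ g)

end Main

end Fermat.Agent.S31.Glue

end
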