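/-
S31 glue, part 2 (helper211): trace rigidity.

If `ρ : G_ℚ → GL₂(A)` (`A` local) is residually absolutely irreducible and `τ` satisfies
`tr ρ(g τ) = tr ρ(g)` for all `g`, then `ρ(τ) = 1`.

Proof: (a) 2×2 Burnside by hand over the algebraic closure of the residue field: the trace form
separates points on the span of the image; (b) hence the image spans `M₂(k)`; (c) Nakayama: the
image spans `M₂(A)`; (d) the trace form on `M₂(A)` is perfect.
-/
import Mathlib
import Fermat.Prelude.Def_GaloisRep_Adic

set_option autoImplicit false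

namespace Fermat.Agent.S31.TraceRigid

open scoped TensorProduct

section TwoByTwo

variable {R : Type*} [CommRing R]

/-- For a singular 2×2 matrix `Z`: `Z a Z = tr(a Z) Z`. -/
theorem mul_mul_self_of_det_eq_zero (Z a : Matrix (Fin 2) (Fin 2) R) (h : Z.det = 0) :
    Z * a * Z = (a * Z).trace • Z := by
  rw [Matrix.det_fin_two] at h
  ext i j
  fin_cases i <;> fin_cases j
  · simp only [Fin.zero_eta, Fin.isValue, Matrix.mul_apply, Fin.sum_univ_two, Matrix.trace_fin_two,
      Matrix.smul_apply, smul_eq_mul]
    linear_combination (-(a 1 1)) * h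
  · simp only [Fin.zero_eta, Fin.isValue, Fin.mk_one, Matrix.mul_apply, Fin.sum_univ_two,
      Matrix.trace_fin_two, Matrix.smul_apply, smul_eq_mul]
    linear_combination (a 0 1) * h
  · simp only [Fin.mk_one, Fin.isValue, Fin.zero_eta, Matrix.mul_apply, Fin.sum_univ_two,
      Matrix.trace_fin_two, Matrix.smul_apply, smul_eq_mul]
    linear_combination (a 1 0) * h
  · simp only [Fin.mk_one, Fin.isValue, Matrix.mul_apply, Fin.sum_univ_two, Matrix.trace_fin_two,
      Matrix.smul_apply, smul_eq_mul]
    linear_combination (-(a 0 0)) * h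

end TwoByTwo

section Field

variable {K : Type*} [Field K] {V : Type*} [AddCommGroup V] [Module K V]

theorem tmul_one_ne_zero (L : Type*) [Field L] [Algebra K L] {v : V} (hv : v ≠ 0) :
    (1 : L) ⊗ₜ[K] v ≠ 0 := by
  intro h
  apply hv
  let b := Module.Free.chooseBasis K V
  apply b.repr.injective
  ext i
  have := congrArg (fun x => (b.baseChange L).repr x i) h
  simp only [Module.Basis.baseChange_repr_tmul, map_zero, Finsupp.zero_apply] at this
  simpa using this

/-- Endomorphism form of `mul_mul_self_of_det_eq_zero`. -/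
theorem end_mul_mul_self_of_det_eq_zero (h2 : Module.finrank K V = 2) (Z a : Module.End K V)
    (h : LinearMap.det Z = 0) : Z * a * Z = LinearMap.trace K V (a * Z) • Z := by
  have : Module.Finite K V := Module.finite_of_finrank_eq_succ h2
  let e : Module.Basis (Fin 2) K V := Module.finBasisOfFinrankEq K V h2
  apply (LinearMap.toMatrix e e).injective
  rw [LinearMap.toMatrix_mul, LinearMap.toMatrix_mul, map_smul,
    LinearMap.trace_eq_matrix_trace K e, LinearMap.toMatrix_mul]
  exact mul_mul_self_of_det_eq_zero _ _ (by rw [LinearMap.det_toMatrix]; exact h)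

variable {G : Type*} [Monoid G]

/-- The singular case of 2×2 Burnside. -/
theorem eq_zero_of_trace_eq_zero_of_det_eq_zero (ρ : G →* Module.End K V)
    (h2 : Module.finrank K V = 2)
    (hirr : ∀ W : Submodule K V, (∀ g, ∀ x ∈ W, ρ g x ∈ W) → W = ⊥ ∨ W = ⊤)
    (Z : Module.End K V) (hZ : ∀ g, LinearMap.trace K V (ρ g * Z) = 0)
    (hdet : LinearMap.det Z = 0) : Z = 0 := by
  by_contra hne
  have hZaZ : ∀ g, Z * ρ g * Z = 0 := by
    intro g
    rw [end_mul_mul_self_of_det_eq_zero h2 Z (ρ g) hdet, hZ g, zero_smul]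
  let W : Submodule K V := Submodule.span K {w | ∃ g x, w = ρ g (Z x)}
  have hstab : ∀ g, ∀ x ∈ W, ρ g x ∈ W := by
    intro g x hx
    induction hx using Submodule.span_induction with
    | mem w hw =>
      obtain ⟨g', x', rfl⟩ := hw
      refine Submodule.subset_span ⟨g * g', x', ?_⟩
      rw [map_mul]; rfl
    | zero => rw [map_zero]; exact Submodule.zero_mem _
    | add x y _ _ hx hy => rw [map_add]; exact Submodule.add_mem _ hx hy
    | smul c x _ hx => rw [map_smul]; exact Submodule.smul_mem _ _ hx
  have hker : W ≤ LinearMap.ker Z := by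
    refine Submodule.span_le.mpr ?_
    rintro w ⟨g, x, rfl⟩
    have := congrArg (fun f : Module.End K V => f x) (hZaZ g)
    exact this
  obtain ⟨x, hx⟩ : ∃ x, Z x ≠ 0 := by
    by_contra hcon
    push Not at hcon
    exact hne (LinearMap.ext hcon)
  rcases hirr W hstab with hW | hW
  · have : Z x ∈ W := Submodule.subset_span ⟨1, x, by rw [map_one]; rfl⟩
    rw [hW] at this
    exact hx ((Submodule.mem_bot K).mp this)
  · rw [hW] at hker
    have : x ∈ LinearMap.ker Z := hker Submodule.mem_top
    exact hx (LinearMap.mem_ker.mp this)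

/-- **2×2 Burnside** in trace form: for an irreducible 2-dimensional representation over an
algebraically closed field, an endomorphism trace-orthogonal to the image is zero. -/
theorem eq_zero_of_trace_eq_zero [IsAlgClosed K] (ρ : G →* Module.End K V)
    (h2 : Module.finrank K V = 2)
    (hirr : ∀ W : Submodule K V, (∀ g, ∀ x ∈ W, ρ g x ∈ W) → W = ⊥ ∨ W = ⊤)
    (Z : Module.End K V) (hZ : ∀ g, LinearMap.trace K V (ρ g * Z) = 0) : Z = 0 := by
  have : Module.Finite K V := Module.finite_of_finrank_eq_succ h2
  have : Nontrivial V := Module.nontrivial_of_finrank_eq_succ h2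
  by_cases hdet : LinearMap.det Z = 0
  · exact eq_zero_of_trace_eq_zero_of_det_eq_zero ρ h2 hirr Z hZ hdet
  exfalso
  have hZu : IsUnit Z := (LinearMap.isUnit_iff_isUnit_det Z).mpr (isUnit_iff_ne_zero.mpr hdet)
  -- every `ρ g` is a scalar
  have hscal : ∀ g, ∃ μ : K, ρ g = μ • (1 : Module.End K V) := by
    intro g
    obtain ⟨μ, hμ⟩ := Module.End.exists_eigenvalue (ρ g)
    refine ⟨μ, ?_⟩
    set Y : Module.End K V := ρ g - μ • (1 : Module.End K V) with hY
    have hYdet : LinearMap.det Y = 0 := by
      rw [LinearMap.det_eq_zero_iff_ker_ne_bot]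
      have := Module.End.hasEigenvalue_iff.mp hμ
      rw [Module.End.eigenspace_def] at this
      exact this
    have hZ' : ∀ h, LinearMap.trace K V (ρ h * (Y * Z)) = 0 := by
      intro h
      rw [hY, sub_mul, mul_sub, smul_mul_assoc, one_mul, mul_smul_comm, map_sub, map_smul,
        ← mul_assoc, ← map_mul, hZ, hZ, smul_zero, sub_zero]
    have h0 := eq_zero_of_trace_eq_zero_of_det_eq_zero ρ h2 hirr (Y * Z) hZ'
      (by rw [map_mul, hYdet, zero_mul])
    have hY0 : Y = 0 := by
      obtain ⟨u, rfl⟩ := hZu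
      have := congrArg (fun f : Module.End K V => f * (↑u⁻¹ : Module.End K V)) h0
      simpa [mul_assoc] using this
    rw [hY, sub_eq_zero] at hY0
    exact hY0
  obtain ⟨v, hv⟩ := exists_ne (0 : V)
  rcases hirr (K ∙ v) (by
    intro g x hx
    obtain ⟨a, rfl⟩ := Submodule.mem_span_singleton.mp hx
    obtain ⟨μ, hμ⟩ := hscal g
    rw [hμ, LinearMap.smul_apply, Module.End.one_apply]
    exact Submodule.smul_mem _ _ (Submodule.smul_mem _ _ (Submodule.mem_span_singleton_self v)))
    with h | h
  · exact hv (Submodule.span_singleton_eq_bot.mp h)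
  · have h1 : Module.finrank K (K ∙ v) = 1 := finrank_span_singleton hv
    rw [h, finrank_top, h2] at h1
    omega

end Field

section Residual

variable {k : Type} [Field k]

/-- Trace-nondegeneracy on the image of an absolutely irreducible residual representation. -/
theorem eq_zero_of_trace_eq_zero_of_absIrr (ρ : ResidualGaloisRep k)
    (habs : ρ.IsAbsolutelyIrreducible) (Z : Module.End k ρ.V)
    (hZ : ∀ g, LinearMap.trace k ρ.V (ρ.ρ g * Z) = 0) : Z = 0 := by
  let L := AlgebraicClosure k
  have h2 : Module.finrank L (L ⊗[k] ρ.V) = 2 := (ρ.baseChange L).finrank_eq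
  have hZL : ∀ g, LinearMap.trace L (L ⊗[k] ρ.V) ((ρ.baseChange L).ρ g * Z.baseChange L) = 0 := by
    intro g
    have : (ρ.baseChange L).ρ g = (ρ.ρ g).baseChange L := rfl
    rw [this, ← LinearMap.baseChange_mul, LinearMap.trace_baseChange, hZ g, map_zero]
  have h0 : Z.baseChange L = 0 :=
    eq_zero_of_trace_eq_zero (ρ.baseChange L).ρ h2 (fun W hW => habs W hW) _ hZL
  refine LinearMap.ext fun v => ?_
  by_contra hv
  have := tmul_one_ne_zero (K := k) L hv
  apply this
  have h1 := congrArg (fun f : Module.End L (L ⊗[k] ρ.V) => f ((1 : L) ⊗ₜ[k] v)) h0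
  simpa [LinearMap.baseChange_tmul] using h1

end Residual

section Matrices

variable {k : Type*} [Field k]

/-- Every linear functional on `M₂(k)` is `m ↦ tr (m Z)`. -/
theorem exists_trace_repr (φ : Matrix (Fin 2) (Fin 2) k →ₗ[k] k) :
    ∃ Z : Matrix (Fin 2) (Fin 2) k, ∀ m, φ m = (m * Z).trace := by
  refine ⟨Matrix.of fun j i => φ (Matrix.single i j 1), fun m => ?_⟩
  have hm : m = ∑ i, ∑ j, m i j • Matrix.single i j (1 : k) := by
    conv_lhs => rw [Matrix.matrix_eq_sum_single m]
    refine Finset.sum_congr rfl fun i _ => Finset.sum_congr rfl fun j _ => ?_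
    rw [Matrix.smul_single, smul_eq_mul, mul_one]
  conv_lhs => rw [hm]
  simp only [map_sum, map_smul, smul_eq_mul, Matrix.trace, Matrix.diag_apply, Matrix.mul_apply,
    Matrix.of_apply]

/-- If the trace form separates `M₂(k)` from the span of a set, the set spans. -/
theorem span_eq_top_of_trace (s : Set (Matrix (Fin 2) (Fin 2) k))
    (h : ∀ Z : Matrix (Fin 2) (Fin 2) k, (∀ m ∈ s, (m * Z).trace = 0) → Z = 0) :
    Submodule.span k s = ⊤ := by
  by_contra hne
  obtain ⟨φ, hφ, hle⟩ := Submodule.exists_le_ker_of_lt_top _ (lt_top_iff_ne_top.mpr hne)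
  obtain ⟨Z, hZ⟩ := exists_trace_repr φ
  have hZ0 : Z = 0 := h Z fun m hm => by
    rw [← hZ m]
    exact LinearMap.mem_ker.mp (hle (Submodule.subset_span hm))
  apply hφ
  ext m
  rw [hZ m, hZ0, mul_zero, Matrix.trace_zero, LinearMap.zero_apply]

end Matrices

section Adic

open IsLocalRing

variable {A : Type} [CommRing A] [IsLocalRing A]

/-- **Trace rigidity**: for a residually absolutely irreducible `ρ`, an element `τ` with
`tr ρ(g τ) = tr ρ(g)` for all `g` acts trivially. -/
theorem rho_eq_one_of_trace_invariant (ρ : GaloisRepAdic A)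
    (habs : ρ.residual.IsAbsolutelyIrreducible)
    (τ : AlgebraicClosure ℚ ≃ₐ[ℚ] AlgebraicClosure ℚ)
    (htr : ∀ g, LinearMap.trace A ρ.V (ρ.ρ (g * τ)) = LinearMap.trace A ρ.V (ρ.ρ g)) :
    ρ.ρ τ = 1 := by
  let c : Module.Basis (Fin 2) A ρ.V := Module.finBasisOfFinrankEq A ρ.V ρ.finrank_eq
  let cbar : Module.Basis (Fin 2) (ResidueField A) ρ.residual.V :=
    Algebra.TensorProduct.basis (ResidueField A) c
  let Rm : (AlgebraicClosure ℚ ≃ₐ[ℚ] AlgebraicClosure ℚ) → Matrix (Fin 2) (Fin 2) A :=
    fun g => LinearMap.toMatrix c c (ρ.ρ g)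
  have hRbar : ∀ g, LinearMap.toMatrix cbar cbar (ρ.residual.ρ g) = (Rm g).map (residue A) :=
    fun g => LinearMap.toMatrix_baseChange (ResidueField A) (ρ.ρ g) c c
  -- (b) the residual image spans
  have hspank : Submodule.span (ResidueField A)
      (Set.range fun g => (Rm g).map (residue A)) = ⊤ := by
    refine span_eq_top_of_trace _ fun Z hZ => ?_
    have h0 : Matrix.toLin cbar cbar Z = 0 := by
      refine eq_zero_of_trace_eq_zero_of_absIrr ρ.residual habs _ fun g => ?_
      rw [LinearMap.trace_eq_matrix_trace (ResidueField A) cbar, LinearMap.toMatrix_mul,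
        LinearMap.toMatrix_toLin, hRbar]
      exact hZ _ ⟨g, rfl⟩
    have := congrArg (LinearMap.toMatrix cbar cbar) h0
    rwa [LinearMap.toMatrix_toLin, map_zero] at this
  -- (c) Nakayama: the image spans over `A`
  have hlift : ∀ y ∈ Submodule.span (ResidueField A) (Set.range fun g => (Rm g).map (residue A)),
      ∃ a ∈ Submodule.span A (Set.range Rm), a.map (residue A) = y := by
    intro y hy
    induction hy using Submodule.span_induction with
    | mem w hw =>
      obtain ⟨g, rfl⟩ := hw
      exact ⟨Rm g, Submodule.subset_span ⟨g, rfl⟩, rfl⟩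
    | zero => exact ⟨0, Submodule.zero_mem _, by ext i j; simp⟩
    | add x y _ _ hx hy =>
      obtain ⟨a, ha, rfl⟩ := hx
      obtain ⟨b, hb, rfl⟩ := hy
      exact ⟨a + b, Submodule.add_mem _ ha hb, by ext i j; simp⟩
    | smul r x _ hx =>
      obtain ⟨a, ha, rfl⟩ := hx
      obtain ⟨r', rfl⟩ := residue_surjective r
      exact ⟨r' • a, Submodule.smul_mem _ _ ha, by ext i j; simp⟩
  have hspanA : Submodule.span A (Set.range Rm) = ⊤ := by
    refine eq_top_iff.mpr (Submodule.le_of_le_smul_of_le_jacobson_bot Module.Finite.fg_top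
      (maximalIdeal_le_jacobson ⊥) ?_)
    intro x _
    obtain ⟨a, ha, hax⟩ := hlift (x.map (residue A)) (by rw [hspank]; exact Submodule.mem_top)
    have hmem : ∀ i j, (x - a) i j ∈ maximalIdeal A := by
      intro i j
      rw [← residue_eq_zero_iff, Matrix.sub_apply, map_sub, sub_eq_zero]
      have := congrFun (congrFun hax i) j
      simpa using this.symm
    have hxa : x - a ∈ maximalIdeal A • (⊤ : Submodule A (Matrix (Fin 2) (Fin 2) A)) := by
      have hsum : x - a = ∑ i, ∑ j, (x - a) i j • Matrix.single i j (1 : A) := by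
        conv_lhs => rw [Matrix.matrix_eq_sum_single (x - a)]
        refine Finset.sum_congr rfl fun i _ => Finset.sum_congr rfl fun j _ => ?_
        rw [Matrix.smul_single, smul_eq_mul, mul_one]
      rw [hsum]
      exact Submodule.sum_mem _ fun i _ => Submodule.sum_mem _ fun j _ =>
        Submodule.smul_mem_smul (hmem i j) Submodule.mem_top
    have : x = a + (x - a) := by abel
    rw [this]
    exact Submodule.add_mem_sup ha hxa
  -- (d) the trace form kills `ρ τ - 1`
  have hu : ∀ m ∈ Submodule.span A (Set.range Rm), (m * (Rm τ - 1)).trace = 0 := by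
    intro m hm
    induction hm using Submodule.span_induction with
    | mem w hw =>
      obtain ⟨g, rfl⟩ := hw
      have h1 : Rm g * Rm τ = Rm (g * τ) := by
        show LinearMap.toMatrix c c (ρ.ρ g) * LinearMap.toMatrix c c (ρ.ρ τ) = _
        rw [← LinearMap.toMatrix_mul, ← map_mul]
      rw [mul_sub, mul_one, Matrix.trace_sub, h1]
      have := htr g
      rw [LinearMap.trace_eq_matrix_trace A c, LinearMap.trace_eq_matrix_trace A c] at this
      exact sub_eq_zero.mpr this
    | zero => rw [zero_mul, Matrix.trace_zero]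
    | add x y _ _ hx hy => rw [add_mul, Matrix.trace_add, hx, hy, add_zero]
    | smul r x _ hx => rw [Matrix.smul_mul, Matrix.trace_smul, hx, smul_zero]
  have hzero : Rm τ - 1 = 0 := by
    ext i j
    have := hu (Matrix.single j i 1) (by rw [hspanA]; exact Submodule.mem_top)
    rw [Matrix.trace_single_mul, one_smul] at this
    simpa using this
  have h1 : LinearMap.toMatrix c c (ρ.ρ τ) = LinearMap.toMatrix c c 1 := by
    rw [LinearMap.toMatrix_one]
    exact sub_eq_zero.mp hzero
  exact (LinearMap.toMatrix c c).injective h1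

end Adic

end Fermat.Agent.S31.TraceRigid
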